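import Fermat.Agent.Jac.Chart.Spread.Global
import Fermat.Agent.Jac.Field

/-!
# Sub-bundles from sections, and spreading out frames

A section `s` of `hom ξ N` which is onto along the zeros of the coordinate of the second chart
identifies `ξ` with the sub-bundle of `N` cut out by `s ξ₀` (see `Jac/Chart/Spread/Infinity`); if
this is framed at a point, it is framed nearby.
-/

set_option autoImplicit false

universe u

noncomputable section

open TensorProduct

namespace Fermat.Agent.Jac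

variable {k : Type u} [Field k] {D : CurveData k}
variable {R : Type u} [CommRing R] [Algebra k R]

namespace LB

section Field

variable {K : Type u} [Field K] [Algebra k K]

theorem imageLattice_smul_le {ξ N : LB D K} (c : K) (s : (ξ.hom N).M) :
    imageLattice (c • s) ≤ imageLattice s := by
  rintro _ ⟨a, ha, rfl⟩
  exact ⟨c • a, (ξ.L 0).smul_of_tower_mem c ha, LinearMap.map_smul_of_tower (toMap s) c a⟩

theorem ontoSub_smul_le {ξ N : LB D K} (c : K) (s : (ξ.hom N).M) : ontoSub (c • s) ≤ ontoSub s := by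
  refine sup_le_sup_right ?_ _
  rintro _ ⟨a, ha, rfl⟩
  exact ⟨c • a, (ξ.L 1).smul_of_tower_mem c ha, LinearMap.map_smul_of_tower (toMap s) c a⟩

/-- The section given by an isomorphism with a sub-bundle. -/
theorem exists_section_of_subBundle {N ξ : LB D K} {S : Submodule (D.A K 0) N.M}
    (h : N.IsSubLattice 0 S) (iso : (N.subBundle 0 S h).Isomorphic ξ) :
    ∃ s ∈ (ξ.hom N).H0, imageLattice s = S ∧ N.L 1 ≤ ontoSub s := by
  obtain ⟨e⟩ := iso
  let f : ξ.M →ₗ[D.A01 K] N.M :=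
    (Submodule.span (D.A01 K) (S : Set N.M)).subtype ∘ₗ e.e.symm.toLinearMap
  let s : (ξ.hom N).M := toMap.symm f
  have hsymm : ∀ i a, a ∈ ξ.L i → e.e.symm a ∈ (N.subBundle 0 S h).L i := fun i a ha =>
    (e.symm.mem_iff i a).2 ha
  have hf : ∀ x, f (e.e x) = x.1 := fun x => congrArg Subtype.val (e.e.symm_apply_apply x)
  refine ⟨s, ⟨fun a ha => (hsymm 0 a ha).1, fun a ha => (hsymm 1 a ha).1⟩, ?_, ?_⟩
  · refine le_antisymm ?_ fun x hx => ?_
    · rintro _ ⟨a, ha, rfl⟩
      exact (hsymm 0 a ha).2 rfl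
    · let x' : (N.subBundle 0 S h).M := ⟨x, Submodule.subset_span hx⟩
      exact ⟨e.e x', (e.mem_iff 0 x').2 ⟨h.le hx, fun _ => hx⟩, hf x'⟩
  · intro m hm
    obtain ⟨q, hq⟩ := h.exists_smul_mem_span (j := 1) (by decide)
    let x' : (N.subBundle 0 S h).M := ⟨_, hq m hm⟩
    refine mem_ontoSub.2 ⟨e.e x', (e.mem_iff 1 x').2 ⟨(N.L 1).smul_mem _ hm,
      fun h10 => absurd h10 (by decide)⟩, -(q • m), neg_mem ((N.L 1).smul_mem _ hm), ?_⟩
    change f (e.e x') + _ = m
    rw [hf]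
    change (1 + D.tR K 1 * q) • m + _ = m
    rw [smul_neg, smul_smul, add_smul, one_smul, add_neg_cancel_right]

end Field

variable {ξ N : LB D R} {g : ℕ} {β : Fin g → N.M}

theorem degree_of_descend {R₀ : Type u} [CommRing R₀] [Algebra k R₀] {φ₀ : R →ₐ[k] R₀}
    {N₀ : LB D R₀} (gN₀ : Mor φ₀ N N₀) {d : ℤ}
    (hN : ∀ (K : Type u) [Field K] [IsAlgClosed K] [Algebra k K] (φ : R →ₐ[k] K) (L : LB D K),
      Mor φ N L → L.deg = d)
    (K : Type u) [Field K] [IsAlgClosed K] [Algebra k K] (φ : R₀ →ₐ[k] K) (L : LB D K)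
    (g' : Mor φ N₀ L) :
    L.deg = d :=
  hN K (φ.comp φ₀) L (gN₀.comp g')

variable {K : Type u} [Field K] [IsAlgClosed K] [Algebra k K] {φ : R →ₐ[k] K} {NK ξK : LB D K}

omit [IsAlgClosed K] in
theorem span_image_descend {R₀ : Type u} [CommRing R₀] [Algebra k R₀] {φ₀ : R →ₐ[k] R₀}
    {N₀ ξ₀ : LB D R₀} (gN₀ : Mor φ₀ N N₀) (gξ₀ : Mor φ₀ ξ ξ₀) {ψ : R₀ →ₐ[k] K} (hψ : ψ.comp φ₀ = φ)
    (gN : Mor φ N NK) (s : (ξ.hom N).M) :
    Submodule.span (D.A K 0)
      ((gN₀.descend hψ gN).f '' (imageLattice ((gξ₀.hom gN₀).f s) : Set N₀.M)) =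
      Submodule.span (D.A K 0) (gN.f '' (imageLattice s : Set N.M)) := by
  rw [← span_image_imageLattice gξ₀ gN₀]
  exact gN₀.span_image_span _ gN (Mor.descend_f gN₀ hψ gN) 0 _

omit [IsAlgClosed K] in
/-- A frame near the point from a section which is onto at infinity. -/
theorem frameNear_of_onto (hβ : ∀ i, β i ∈ N.L 0)
    (hN : ∀ (K : Type u) [Field K] [IsAlgClosed K] [Algebra k K] (φ : R →ₐ[k] K) (L : LB D K),
      Mor φ N L → L.deg = g)
    (hξ : ξ.FibreDegZero) (gN : Mor φ N NK) {SK : Submodule (D.A K 0) NK.M}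
    (hSK : NK.IsFrame (fun i => gN.f (β i)) SK) {s : (ξ.hom N).M} (hs : s ∈ (ξ.hom N).H0)
    (h₁ : N.L 1 ≤ ontoSub s)
    (hS : Submodule.span (D.A K 0) (gN.f '' (imageLattice s : Set N.M)) = SK) :
    FrameNear ξ N β φ := by
  let V : Submodule R N.M := (imageLattice s).restrictScalars R ⊔ Submodule.span R (Set.range β)
  have hV : V ≤ (N.L 0).restrictScalars R :=
    sup_le (fun x hx => imageLattice_le hs hx)
      (Submodule.span_le.2 (by rintro _ ⟨i, rfl⟩; exact hβ i))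
  have hfin : Module.Finite R
      (((N.L 0).restrictScalars R) ⧸ V.comap ((N.L 0).restrictScalars R).subtype) := by
    have := finite_quot_imageLattice hs (le_ontoSub_iff.1 h₁)
    let T := (imageLattice s).comap (N.L 0).subtype
    let i₀ : N.L 0 →ₗ[R] (N.L 0).restrictScalars R :=
      { toFun := fun m => ⟨m, m.2⟩
        map_add' := fun _ _ => rfl
        map_smul' := fun _ _ => rfl }
    let F := (T.restrictScalars R).mapQ (V.comap ((N.L 0).restrictScalars R).subtype) i₀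
      fun x hx => Submodule.mem_sup_left hx
    exact Module.Finite.of_surjective
      (F ∘ₗ (Submodule.Quotient.restrictScalarsEquiv R T).symm.toLinearMap)
      fun y => by
        obtain ⟨⟨m, hm⟩, rfl⟩ := Submodule.Quotient.mk_surjective _ y
        exact ⟨Submodule.Quotient.mk ⟨m, hm⟩, rfl⟩
  -- The image of `s` and the `β i` span at the point, hence after inverting some `r`; there
  -- `s` is onto at infinity as well, which gives the frame.
  obtain ⟨r, hr, hr'⟩ := exists_smul_mem_of_fibre gN 0 V hV fun y hy => by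
    obtain ⟨c, hc, -⟩ := hSK.existsUnique y hy
    change y - ∑ i, c i • gN.f (β i) ∈ SK at hc
    rw [← hS, ← Submodule.restrictScalars_mem K, gN.span_image_base 0] at hc
    rw [← sub_add_cancel y (∑ i, c i • gN.f (β i))]
    refine add_mem (Submodule.span_mono (Set.image_mono fun x hx => Submodule.mem_sup_left hx) hc)
      (sum_mem fun i _ => Submodule.smul_mem _ _ (Submodule.subset_span ⟨β i, ?_, rfl⟩))
    exact Submodule.mem_sup_right (Submodule.subset_span ⟨i, rfl⟩)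
  refine frameNear_of_away hr fun R₀ _ _ φ₀ ψ hu hψ N₀ ξ₀ gN₀ gξ₀ => ?_
  have hs₀ := Mor.hom_mem_H0 gξ₀ gN₀ hs
  have h₁' : N₀.L 1 ≤ ontoSub ((gξ₀.hom gN₀).f s) :=
    le_ontoSub_hom gξ₀ gN₀ (r := 1) (by rw [map_one]; exact isUnit_one) fun m hm => by
      rw [one_smul]; exact h₁ hm
  have h₂' : ∀ m ∈ N₀.L 0, ∃ a ∈ ξ₀.L 0, ∃ c : Fin g → R₀,
      toMap ((gξ₀.hom gN₀).f s) a + ∑ i, c i • gN₀.f (β i) = m := by
    intro m hm
    have hm' : m ∈ Submodule.span R₀ (gN₀.f '' (N.L 0 : Set N.M)) := by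
      rw [← gN₀.span_base 0]; exact hm
    clear hm
    induction hm' using Submodule.span_induction with
    | mem x hx =>
      obtain ⟨n, hn, rfl⟩ := hx
      obtain ⟨_, ⟨a, ha, rfl⟩, b, hb, e⟩ := Submodule.mem_sup.1 (hr' n hn)
      obtain ⟨c, rfl⟩ := (Submodule.mem_span_range_iff_exists_fun R).1 hb
      obtain ⟨v, hv⟩ := hu
      refine ⟨(↑v⁻¹ : R₀) • gξ₀.f a, (ξ₀.L 0).smul_of_tower_mem _ (gξ₀.map_mem ha),
        fun i => (↑v⁻¹ : R₀) * φ₀ (c i), ?_⟩
      rw [LinearMap.map_smul_of_tower, Mor.hom_apply gξ₀ gN₀]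
      simp only [mul_smul, ← Finset.smul_sum, ← gN₀.f_smul_base, ← map_sum, ← smul_add, ← map_add]
      rw [show toMap s a + ∑ i, c i • β i = r • n from e, gN₀.f_smul_base, smul_smul, ← hv,
        Units.inv_mul, one_smul]
    | zero => exact ⟨0, zero_mem _, 0, by simp⟩
    | add x y _ _ hx hy =>
      obtain ⟨a, ha, c, rfl⟩ := hx
      obtain ⟨a', ha', c', rfl⟩ := hy
      exact ⟨a + a', add_mem ha ha', c + c', by
        simp only [map_add, Pi.add_apply, add_smul, Finset.sum_add_distrib]; abel⟩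
    | smul t x _ hx =>
      obtain ⟨a, ha, c, rfl⟩ := hx
      exact ⟨t • a, (ξ₀.L 0).smul_of_tower_mem t ha, t • c, by
        rw [LinearMap.map_smul_of_tower, smul_add, Finset.smul_sum]
        simp only [Pi.smul_apply, smul_eq_mul, mul_smul]⟩
  obtain ⟨h, hiso⟩ := exists_isFrame_of_onto (fun i => gN₀.map_mem (hβ i))
    (degree_of_descend gN₀ hN)
    (hξ.map gξ₀) hs₀ h₁' h₂'
  exact frameNear_of_isFrame h hiso ψ

/-- A frame near the point when the first cohomology of the homomorphism bundle vanishes. -/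
theorem frameNear_of_subsingleton [Subsingleton (ξ.hom N).H1] (hβ : ∀ i, β i ∈ N.L 0)
    (hN : ∀ (K : Type u) [Field K] [IsAlgClosed K] [Algebra k K] (φ : R →ₐ[k] K) (L : LB D K),
      Mor φ N L → L.deg = g)
    (hg : g = D.genus) (hξ : ξ.FibreDegZero) (gN : Mor φ N NK) (gξ : Mor φ ξ ξK)
    {SK : Submodule (D.A K 0) NK.M} (hSK : NK.IsFrame (fun i => gN.f (β i)) SK)
    (iso : (NK.subBundle 0 SK hSK.isSubLattice).Isomorphic ξK) : FrameNear ξ N β φ := by
  obtain ⟨sK, hsK, himg, honto⟩ := exists_section_of_subBundle hSK.isSubLattice iso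
  let gH := gξ.hom gN
  have := gH.subsingleton_H1
  have := (ξK.hom NK).finite_H0_field
  -- Over `K` the sections of `hom ξK NK` form a line.
  have h1 : Module.finrank K (ξK.hom NK).H0 = 1 := by
    have hdeg := deg_hom ξK NK
    rw [hN K φ NK gN, hξ K φ ξK gξ, sub_zero, deg, chi_unit, chi, h1,
      Module.finrank_zero_of_subsingleton, h0, hg] at hdeg
    omega
  have hne : sK ≠ 0 := ne_zero_of_le_ontoSub honto
  -- So some section `s` over `R` becomes `sK` up to a scalar.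
  obtain ⟨s, hs, hs0⟩ : ∃ s ∈ (ξ.hom N).H0, gH.f s ≠ 0 := by
    by_contra! hc
    refine hne ((Submodule.mem_bot K).1 ?_)
    have h := hsK
    rw [← gH.span_H0] at h
    exact Submodule.span_le.2 (by rintro _ ⟨m, hm, rfl⟩; exact hc m hm) h
  obtain ⟨c, hc⟩ := exists_smul_eq_of_finrank_eq_one h1
    (x := (⟨gH.f s, gH.map_H0 hs⟩ : (ξK.hom NK).H0)) (fun e => hs0 (congrArg Subtype.val e))
      ⟨sK, hsK⟩
  have hc' : c • gH.f s = sK := congrArg Subtype.val hc
  have hcne : c ≠ 0 := fun h => hne (by rw [← hc', h, zero_smul])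
  have honto' : NK.L 1 ≤ ontoSub (gH.f s) := honto.trans (hc' ▸ ontoSub_smul_le c (gH.f s))
  have himg' : imageLattice (gH.f s) = SK := by
    refine himg ▸ le_antisymm ?_ (hc' ▸ imageLattice_smul_le c (gH.f s))
    have := imageLattice_smul_le c⁻¹ sK
    rwa [← hc', smul_smul, inv_mul_cancel₀ hcne, one_smul, hc'] at this
  -- Its image and the multiples of `u` span at the point, hence over a neighbourhood.
  let V : Submodule R N.M := (ontoSub s).restrictScalars R
  have hV : V ≤ (N.L 1).restrictScalars R := by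
    intro x hx
    obtain ⟨a, ha, b, hb, rfl⟩ := mem_ontoSub.1 hx
    exact add_mem (mem_hom.1 hs.2 a ha) ((N.L 1).smul_mem _ hb)
  have hfin : Module.Finite R
      (((N.L 1).restrictScalars R) ⧸ V.comap ((N.L 1).restrictScalars R).subtype) := by
    classical
    obtain ⟨G, hG, hspan⟩ := N.exists_generators 1
    refine ⟨Submodule.fg_def.2 ⟨_, Set.finite_range fun x : G =>
      (V.comap ((N.L 1).restrictScalars R).subtype).mkQ ⟨x, hG x.2⟩, eq_top_iff.2 fun y _ => ?_⟩⟩
    obtain ⟨⟨m, hm⟩, rfl⟩ := Submodule.mkQ_surjective _ y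
    let W : Submodule R N.M := ((Submodule.span R (Set.range fun x : G =>
      (V.comap ((N.L 1).restrictScalars R).subtype).mkQ ⟨x, hG x.2⟩)).comap
        (V.comap ((N.L 1).restrictScalars R).subtype).mkQ).map ((N.L 1).restrictScalars R).subtype
    have hle : Submodule.span R (Set.range fun p : ℕ × G => D.uR R 1 ^ p.1 • (p.2 : N.M)) ≤ W := by
      refine Submodule.span_le.2 ?_
      rintro _ ⟨⟨l, x⟩, rfl⟩
      rcases l with _ | l
      · exact ⟨⟨x, hG x.2⟩, Submodule.subset_span ⟨x, rfl⟩, by simp⟩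
      · refine ⟨⟨_, N.uR_pow_smul_mem (n := l + 1) (hG x.2)⟩, ?_, rfl⟩
        rw [SetLike.mem_coe, Submodule.mem_comap, Submodule.mkQ_apply,
          (Submodule.Quotient.mk_eq_zero _).2]
        · exact zero_mem _
        · refine mem_ontoSub.2 ⟨0, zero_mem _, _, N.uR_pow_smul_mem (n := l) (hG x.2), ?_⟩
          change toMap s 0 + _ = D.uR R 1 ^ (l + 1) • (x : N.M)
          rw [map_zero, zero_add, N.uR_pow_smul, N.uR_pow_smul, smul_smul, pow_succ']
    obtain ⟨⟨z, hz⟩, hz', rfl⟩ := hle (hspan hm)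
    exact hz'
  obtain ⟨r, hr, hr'⟩ := exists_smul_mem_of_fibre gN 1 V hV
    (fun y hy => ontoSub_le_span_image gξ gN s (honto' hy))
  -- There the criterion for onto sections gives the frame.
  refine frameNear_of_away hr fun R₀ _ _ φ₀ ψ hu hψ N₀ ξ₀ gN₀ gξ₀ => ?_
  have e : (fun i => gN.f (β i)) = fun i => (gN₀.descend hψ gN).f (gN₀.f (β i)) :=
    funext fun i => (Mor.descend_f _ _ _ _).symm
  refine frameNear_of_onto (fun i => gN₀.map_mem (hβ i)) (degree_of_descend gN₀ hN) (hξ.map gξ₀)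
    (gN₀.descend hψ gN) (e ▸ hSK) (Mor.hom_mem_H0 gξ₀ gN₀ hs) (le_ontoSub_hom gξ₀ gN₀ hu hr') ?_
  rw [span_image_descend gN₀ gξ₀ hψ gN, span_image_imageLattice gξ gN, himg']

/-- Frames spread out from a geometric point. -/
theorem exists_frame_near (hβ : ∀ i, β i ∈ N.L 0)
    (hN : ∀ (K : Type u) [Field K] [IsAlgClosed K] [Algebra k K] (φ : R →ₐ[k] K) (L : LB D K),
      Mor φ N L → L.deg = g)
    (hg : g = D.genus) (hξ : ξ.FibreDegZero) (gN : Mor φ N NK) (gξ : Mor φ ξ ξK)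
    {SK : Submodule (D.A K 0) NK.M} (hSK : NK.IsFrame (fun i => gN.f (β i)) SK)
    (iso : (NK.subBundle 0 SK hSK.isSubLattice).Isomorphic ξK) (hH1 : Subsingleton (ξK.hom NK).H1) :
    ∃ r : R, φ r ≠ 0 ∧ ∀ (R' : Type u) [CommRing R'] [Algebra k R'] (φ' : R →ₐ[k] R'),
      IsUnit (φ' r) →
      ∀ (N' ξ' : LB D R') (gN' : Mor φ' N N'), Mor φ' ξ ξ' →
        ∃ S' : Submodule (D.A R' 0) N'.M, ∃ h' : N'.IsFrame (fun i => gN'.f (β i)) S',
          (N'.subBundle 0 S' h'.isSubLattice).Isomorphic ξ' := by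
  have hmem : pointOf φ ∈ (ξ.hom N).h1Locus := (gξ.hom gN).subsingleton_H1_iff.1 hH1
    ⟨⟨⊥, Ideal.isPrime_bot⟩, PrimeSpectrum.ext (RingHom.ker_eq_comap_bot φ.toRingHom).symm⟩
  obtain ⟨_, ⟨r, rfl⟩, hr, hsub⟩ :=
    PrimeSpectrum.isTopologicalBasis_basic_opens.exists_subset_of_mem_open hmem
    (ξ.hom N).h1Locus.2
  refine frameNear_of_away (r₀ := r) (fun h => hr h) fun R₀ _ _ φ₀ ψ hu hψ N₀ ξ₀ gN₀ gξ₀ => ?_
  have : Subsingleton (ξ₀.hom N₀).H1 := (gξ₀.hom gN₀).subsingleton_H1_iff.2 <| by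
    rintro _ ⟨q, rfl⟩
    refine hsub ?_
    change φ₀ r ∉ q.asIdeal
    exact fun h => q.isPrime.ne_top (Ideal.eq_top_of_isUnit_mem _ h hu)
  have e : (fun i => gN.f (β i)) = fun i => (gN₀.descend hψ gN).f (gN₀.f (β i)) :=
    funext fun i => (Mor.descend_f _ _ _ _).symm
  exact frameNear_of_subsingleton (fun i => gN₀.map_mem (hβ i)) (degree_of_descend gN₀ hN) hg
    (hξ.map gξ₀)
    (gN₀.descend hψ gN) (gξ₀.descend hψ gξ) (e ▸ hSK) iso

end LB

end Fermat.Agent.Jac

end
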