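import Fermat.Agent.Jac.Chart.Universal
import Fermat.Agent.Jac.Chart.Spread

/-!
# Every bundle of degree zero is a point of some affine piece
-/

set_option autoImplicit false

universe u

noncomputable section

open TensorProduct

namespace Fermat.Agent.Jac.Chart

variable {k : Type u} [Field k] {D : CurveData k}
variable {K : Type u} [Field K] [Algebra k K]

/-- A sublattice whose quotient has dimension `g` has a frame of `g` sections over the ground
field. -/
theorem exists_isFrame {N₀ : LB D k} {g : ℕ} {S : Submodule (D.A K 0) (bc N₀ K).M}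
    (h : (bc N₀ K).IsSubLattice 0 S)
    (hg : Module.finrank K (((bc N₀ K).L 0) ⧸ S.comap ((bc N₀ K).L 0).subtype) = g) :
    ∃ β₀ : Fin g → N₀.L 0, (bc N₀ K).IsFrame (frameSec N₀ β₀ K) S := by
  classical
  let T := S.comap ((bc N₀ K).L 0).subtype
  let π : ((bc N₀ K).L 0).restrictScalars K →ₗ[K] ((bc N₀ K).L 0) ⧸ T :=
    { toFun := fun x => T.mkQ ⟨x, x.2⟩
      map_add' := fun x y => (T.mkQ).map_add ⟨(x : (bc N₀ K).M), x.2⟩ ⟨y, y.2⟩
      map_smul' := fun c x => (T.mkQ.restrictScalars K).map_smul c ⟨(x : (bc N₀ K).M), x.2⟩ }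
  have hπ : Function.Surjective π := fun q => by
    obtain ⟨x, rfl⟩ := T.mkQ_surjective q
    exact ⟨⟨x, x.2⟩, rfl⟩
  let v : N₀.L 0 → ((bc N₀ K).L 0) ⧸ T := fun m => π ⟨(bcMor N₀ K).f m, (bcMor N₀ K).map_mem m.2⟩
  have hv : Submodule.span K (Set.range v) = ⊤ := by
    refine eq_top_iff.2 fun q _ => ?_
    obtain ⟨⟨x, hx⟩, rfl⟩ := hπ q
    have hle : Submodule.span K ((bcMor N₀ K).f '' (N₀.L 0 : Set N₀.M)) ≤
        ((Submodule.span K (Set.range v)).comap π).map
            (((bc N₀ K).L 0).restrictScalars K).subtype := by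
      refine Submodule.span_le.2 ?_
      rintro _ ⟨m, hm, rfl⟩
      exact ⟨⟨_, (bcMor N₀ K).map_mem hm⟩, Submodule.subset_span ⟨⟨m, hm⟩, rfl⟩, rfl⟩
    obtain ⟨y, hy, e⟩ := hle ((bcMor N₀ K).span_base 0 ▸ hx)
    exact (Subtype.ext e : y = ⟨x, hx⟩) ▸ hy
  obtain ⟨κ, a, -, hspan, hli⟩ := exists_linearIndependent' K v
  have : Module.Finite K (((bc N₀ K).L 0) ⧸ T) := h.finite
  let b : Module.Basis κ K (((bc N₀ K).L 0) ⧸ T) := Module.Basis.mk hli (by rw [hspan, hv])
  have : Finite κ := Module.Finite.finite_basis b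
  have := Fintype.ofFinite κ
  let e : κ ≃ Fin g := Fintype.equivFinOfCardEq ((Module.finrank_eq_card_basis b).symm.trans hg)
  refine ⟨fun i => a (e.symm i), LB.IsFrame.of_proj ((b.reindex e).equivFun.toLinearMap ∘ₗ π) h.le
    (fun i => (bcMor N₀ K).map_mem (a (e.symm i)).2) (fun i => ?_) fun m => ?_⟩
  · show (b.reindex e).equivFun (v (a (e.symm i))) = _
    rw [show v (a (e.symm i)) = b.reindex e i by
      rw [Module.Basis.reindex_apply, Module.Basis.mk_apply]; rfl, Module.Basis.equivFun_apply,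
      Module.Basis.repr_self, Finsupp.single_eq_pi_single]
  · rw [LinearMap.comp_apply, LinearEquiv.coe_coe, LinearEquiv.map_eq_zero_iff]
    exact Iff.trans (Iff.rfl : (m : (bc N₀ K).M) ∈ S ↔ (⟨m, m.2⟩ : (bc N₀ K).L 0) ∈ T)
      (Submodule.Quotient.mk_eq_zero T (x := (⟨m, m.2⟩ : (bc N₀ K).L 0))).symm

/-- Every bundle of degree zero is the bundle of a frame on some chart bundle. -/
theorem exists_frame_of_deg_zero [IsAlgClosed k] [IsAlgClosed K] (ξ : LB D K) (hξ : ξ.deg = 0) :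
    ∃ (n : ℕ) (l : List ((i : Fin 2) × (D.A k i →ₐ[k] k))),
      (chartBundle n l).deg = D.genus ∧
        ∃ (β₀ : Fin D.genus → (chartBundle n l).L 0)
          (S : Submodule (D.A K 0) (bc (chartBundle n l) K).M)
          (h : (bc (chartBundle n l) K).IsFrame (frameSec (chartBundle n l) β₀ K) S),
          Subsingleton (ξ.hom (bc (chartBundle n l) K)).H1 ∧ (frameBundle h).Isomorphic ξ := by
  obtain ⟨n, l, N, ⟨gN⟩, hdeg, hH1, hgen⟩ := exists_chart ξ hξ
  refine ⟨n, l, (LB.deg_eq_of_mor gN).symm.trans hdeg, ?_⟩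
  set N₀ := chartBundle n l
  let e : N.Iso (bc N₀ K) := gN.targetIso (bcMor N₀ K)
  have hH1' : Subsingleton (ξ.hom (bc N₀ K)).H1 := ((LB.Iso.refl ξ).hom e).subsingleton_H1
  obtain ⟨s₀, hs₀, hne⟩ : ∃ s ∈ (ξ.hom N).H0, s ≠ 0 := LB.exists_section_of_chi_pos (by
    have h := LB.deg_hom ξ N
    rw [LB.deg, LB.chi_unit] at h
    omega)
  let s : (ξ.hom (bc N₀ K)).M := ((LB.Iso.refl ξ).hom e).e s₀
  have hs : s ∈ (ξ.hom (bc N₀ K)).H0 :=
    ⟨(((LB.Iso.refl ξ).hom e).mem_iff 0 s₀).2 hs₀.1, (((LB.Iso.refl ξ).hom e).mem_iff 1 s₀).2 hs₀.2⟩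
  have hse : ∀ x, LB.toMap s x = e.e (LB.toMap s₀ x) := fun _ => rfl
  have h₁ : ∀ m ∈ (bc N₀ K).L 1, ∃ a ∈ ξ.L 1, ∃ b ∈ (bc N₀ K).L 1,
      m = LB.toMap s a + D.tR K 1 • b := by
    intro m hm
    obtain ⟨a, ha, b, hb, hab⟩ := hgen s₀ hs₀ hne (e.e.symm m)
      ((e.mem_iff 1 _).1 (by rwa [LinearEquiv.apply_symm_apply]))
    refine ⟨a, ha, e.e b, (e.mem_iff 1 b).2 hb, ?_⟩
    rw [hse, show D.tR K 1 • e.e b = e.e (D.tR K 1 • b) from
      (LinearMap.map_smul_of_tower e.e.toLinearMap _ b).symm, ← map_add, ← hab,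
        LinearEquiv.apply_symm_apply]
  have hfin := LB.finite_quot_imageLattice hs h₁
  have hsub : (bc N₀ K).IsSubLattice 0 (LB.imageLattice s) :=
    ⟨by rintro _ ⟨x, hx, rfl⟩; exact hs.1 x hx, hfin, Module.Projective.of_free⟩
  have hs0 : s ≠ 0 := fun h => hne (((LB.Iso.refl ξ).hom e).e.map_eq_zero_iff.1 h)
  have iso := LB.subBundle_imageLattice_isomorphic hs h₁ (LB.injective_of_ne_zero hs0) hsub
  obtain ⟨β₀, h⟩ := exists_isFrame (g := D.genus) hsub (by
    have h2 := LB.deg_congr iso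
    rw [LB.deg_subBundle _ hsub, LB.deg_eq_of_mor (bcMor N₀ K), hξ,
      (LB.deg_eq_of_mor gN).symm.trans hdeg] at h2
    omega)
  exact ⟨β₀, _, h, hH1', iso⟩

/-- The pushforward of the identity frame is the frame of the homomorphism. -/
theorem span_push_eq {N₀ : LB D k} {g : ℕ} {β₀ : Fin g → N₀.L 0}
    {U : Submodule (D.A (Ring N₀ β₀) 0) (bc N₀ (Ring N₀ β₀)).M}
    (hU : HasCoords N₀ β₀ (AlgHom.id k _) U) {R : Type u} [CommRing R] [Algebra k R]
    {χ : Ring N₀ β₀ →ₐ[k] R} {S : Submodule (D.A R 0) (bc N₀ R).M} (hS : HasCoords N₀ β₀ χ S) :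
    Submodule.span (D.A R 0) ((push N₀ χ).f '' (U : Set (bc N₀ (Ring N₀ β₀)).M)) = S :=
  (hU.map χ).submodule_unique hS

/-- A framed bundle with vanishing first cohomology is a point of an affine piece with vanishing
first cohomology and trivial along the rational point. -/
theorem exists_piece_of_frame {N₀ : LB D k} {β₀ : Fin D.genus → N₀.L 0} {ξ : LB D K}
    {S : Submodule (D.A K 0) (bc N₀ K).M} (h : (bc N₀ K).IsFrame (frameSec N₀ β₀ K) S)
    (hH1 : Subsingleton (ξ.hom (bc N₀ K)).H1) (iso : (frameBundle h).Isomorphic ξ) :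
    ∃ f : Ring N₀ β₀, Subsingleton ((univBundle N₀ β₀ f).hom (bc N₀ (Away N₀ β₀ f))).H1 ∧
      (univBundle N₀ β₀ f).EvTrivial ∧
      ∃ ψ : Away N₀ β₀ f →ₐ[k] K, (pointBundle ψ).Isomorphic ξ := by
  obtain ⟨χ, hχ⟩ := exists_hom h
  obtain ⟨U, hU⟩ := exists_frame (AlgHom.id k (Ring N₀ β₀))
  set H := (frameBundle hU.isFrame).hom (bc N₀ (Ring N₀ β₀))
  -- the first cohomology vanishes near the point
  have hP : pointOf χ ∉ Module.support (Ring N₀ β₀) H.H1 := by
    have gH := (frameMor χ hU.isFrame).hom (push N₀ χ)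
    have : Subsingleton ((frameBundle (isFrame_push χ hU.isFrame)).hom (bc N₀ K)).H1 := by
      have e := (frameBundle_congr h (isFrame_push χ hU.isFrame)
        (span_push_eq hU hχ).symm).symm.trans iso
      exact (e.symm.some.hom (LB.Iso.refl (bc N₀ K))).subsingleton_H1
    have hrange := gH.subsingleton_H1_iff.1 this ⟨pointOf (AlgHom.id k K), rfl⟩
    rw [LB.coe_h1Locus, Set.mem_compl_iff] at hrange
    exact fun hmem => hrange (by
      convert hmem using 1
      exact PrimeSpectrum.ext (Ideal.ext fun x => Iff.rfl))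
  have := H.finite_H1
  obtain ⟨f₁, hf₁, hf₁P⟩ := SetLike.not_le_iff_exists.1 fun hle =>
    hP (Module.mem_support_iff_of_finite.2 hle)
  obtain ⟨f₂, hf₂P, hev⟩ := LB.exists_evTrivial_near (frameBundle hU.isFrame) (pointOf χ)
  refine ⟨f₁ * f₂, ?_⟩
  set u := univHom N₀ β₀ (f₁ * f₂)
  have hu : IsUnit (u (f₁ * f₂)) := IsLocalization.Away.algebraMap_isUnit (f₁ * f₂)
  rw [map_mul, IsUnit.mul_iff] at hu
  have huniv := span_push_eq hU (univFrame_spec N₀ β₀ (f₁ * f₂))
  have euniv : (frameBundle (isFrame_push u hU.isFrame)).Isomorphic (univBundle N₀ β₀ (f₁ * f₂)) :=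
    frameBundle_congr _ (univFrame_spec N₀ β₀ (f₁ * f₂)).isFrame huniv
  let gu : LB.Mor u (frameBundle hU.isFrame) (univBundle N₀ β₀ (f₁ * f₂)) :=
    (frameMor u hU.isFrame).transIso euniv.some
  refine ⟨(gu.hom (push N₀ u)).subsingleton_H1_iff.2 ?_, hev _ u hu.2 _ gu, ?_⟩
  · rintro _ ⟨q, rfl⟩
    rw [LB.coe_h1Locus, Set.mem_compl_iff, Module.mem_support_iff_of_finite]
    exact fun hle => q.isPrime.ne_top (Ideal.eq_top_of_isUnit_mem _ (hle hf₁) hu.1)
  · obtain ⟨ψ, -, hψS⟩ := exists_point (f := f₁ * f₂) hχ (isUnit_iff_ne_zero.2 (by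
      rw [map_mul]; exact mul_ne_zero hf₁P hf₂P))
    exact ⟨ψ, (frameBundle_congr (isFrame_pointFrame ψ) h hψS).trans iso⟩

/-- A bundle of degree zero is a point of an affine piece with vanishing first cohomology and
trivial along the rational point. -/
theorem exists_piece [IsAlgClosed k] [IsAlgClosed K] (ξ : LB D K) (hξ : ξ.deg = 0) :
    ∃ (n : ℕ) (l : List ((i : Fin 2) × (D.A k i →ₐ[k] k))),
      (chartBundle n l).deg = D.genus ∧
        ∃ (β₀ : Fin D.genus → (chartBundle n l).L 0) (f : Ring (chartBundle n l) β₀),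
          Subsingleton
            ((univBundle (chartBundle n l) β₀ f).hom
              (bc (chartBundle n l) (Away (chartBundle n l) β₀ f))).H1 ∧
          (univBundle (chartBundle n l) β₀ f).EvTrivial ∧
          ∃ ψ : Away (chartBundle n l) β₀ f →ₐ[k] K, (pointBundle ψ).Isomorphic ξ := by
  obtain ⟨n, l, hdeg, β₀, S, h, hH1, iso⟩ := exists_frame_of_deg_zero ξ hξ
  obtain ⟨f, hf⟩ := exists_piece_of_frame h hH1 iso
  exact ⟨n, l, hdeg, β₀, f, hf⟩

end Fermat.Agent.Jac.Chart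

end
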