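import Fermat.Agent.Jac.Chart.Universal
import Fermat.Agent.Jac.Chart.Spread

/-!
# The locus of a family in an affine piece of the frame scheme is a neighbourhood
-/

set_option autoImplicit false

universe u

noncomputable section

open TensorProduct

namespace Fermat.Agent.Jac.Chart

variable {k : Type u} [Field k] {D : CurveData k}
variable {N₀ : LB D k} {β₀ : Fin D.genus → N₀.L 0} {f : Ring N₀ β₀}
variable {R : Type u} [CommRing R] [Algebra k R]

/-- A prime near which the family is a point of the piece. -/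
def MemLocus (N₀ : LB D k) (β₀ : Fin D.genus → N₀.L 0) (f : Ring N₀ β₀) {R : Type u} [CommRing R]
    [Algebra k R] (ξ : LB D R) (p : PrimeSpectrum R) : Prop :=
  ∃ r : R, r ∉ p.asIdeal ∧ ∃ (ψ : Away N₀ β₀ f →ₐ[k] Localization.Away r)
    (ξ' L : LB D (Localization.Away r)),
    Nonempty (LB.Mor (IsScalarTower.toAlgHom k R (Localization.Away r)) ξ ξ') ∧
      Nonempty (LB.Mor ψ (univBundle N₀ β₀ f) L) ∧ L.Isomorphic ξ'

theorem isOpen_memLocus (ξ : LB D R) : IsOpen {p | MemLocus N₀ β₀ f ξ p} := by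
  refine isOpen_iff_forall_mem_open.2 fun p hp => ?_
  obtain ⟨r, hr, hdata⟩ := hp
  exact ⟨PrimeSpectrum.basicOpen r, fun q hq => ⟨r, hq, hdata⟩,
    (PrimeSpectrum.basicOpen r).isOpen, hr⟩

/-- The algebra map of a localisation extended to a test algebra. -/
theorem exists_away_lift {R' : Type u} [CommRing R'] [Algebra k R'] (r : R) (φ : R →ₐ[k] R')
    (h : IsUnit (φ r)) :
    ∃ φ' : Localization.Away r →ₐ[k] R',
      φ'.comp (IsScalarTower.toAlgHom k R (Localization.Away r)) = φ := by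
  refine ⟨IsLocalization.liftAlgHom (M := Submonoid.powers r) (f := φ) fun y => ?_,
    AlgHom.ext fun x => IsLocalization.lift_eq _ x⟩
  obtain ⟨_, n, rfl⟩ := y
  show IsUnit (φ (r ^ n))
  rw [map_pow]
  exact h.pow n

/-- A point of the piece over a geometric point spreads to a neighbourhood. -/
theorem memLocus_of_point (hdeg : N₀.deg = D.genus)
    [Subsingleton ((univBundle N₀ β₀ f).hom (bc N₀ (Away N₀ β₀ f))).H1]
    {ξ : LB D R} (hξ : ξ.FibreDegZero) {K : Type u} [Field K] [IsAlgClosed K] [Algebra k K]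
    {φK : R →ₐ[k] K} {ξK : LB D K} (gξ : LB.Mor φK ξ ξK) {ψK : Away N₀ β₀ f →ₐ[k] K}
    (iso : (pointBundle ψK).Isomorphic ξK) : MemLocus N₀ β₀ f ξ (pointOf φK) := by
  have hH1 := subsingleton_H1_pointBundle ψK
  have hH1ξ : Subsingleton (ξK.hom (bc N₀ K)).H1 :=
    (iso.some.hom (LB.Iso.refl (bc N₀ K))).subsingleton_H1
  have hSK : (bc N₀ K).IsFrame (fun i => (push N₀ φK).f (frameSec N₀ β₀ R i)) (pointFrame ψK) := by
    rw [push_frameSec]; exact isFrame_pointFrame ψK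
  obtain ⟨r, hr, hnear⟩ := LB.exists_frame_near (N := bc N₀ R) (ξ := ξ) (β := frameSec N₀ β₀ R)
    (fun i => (bcMor N₀ R).map_mem (β₀ i).2)
    (fun K' _ _ _ φ L g => bc_deg hdeg K' φ L g) rfl hξ (push N₀ φK) gξ hSK iso hH1ξ
  -- a frame on the first neighbourhood
  let φ₁ : R →ₐ[k] Localization.Away r := IsScalarTower.toAlgHom k R _
  let ξ₁ := ξ.baseChange φ₁
  obtain ⟨S₁, h₁, e₁⟩ := hnear (Localization.Away r) φ₁ (IsLocalization.Away.algebraMap_isUnit r)
    (bc N₀ _) ξ₁ (push N₀ φ₁) (ξ.toBaseChange φ₁)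
  have h₁' : (bc N₀ (Localization.Away r)).IsFrame (frameSec N₀ β₀ _) S₁ := by
    rw [← push_frameSec N₀ β₀ φ₁]; exact h₁
  obtain ⟨χ₁, hχ₁⟩ := exists_hom h₁'
  -- it specialises to the given point
  obtain ⟨φbar, hφbar⟩ := exists_away_lift r φK (isUnit_iff_ne_zero.2 hr)
  have isoK : (frameBundle (isFrame_push φbar h₁')).Isomorphic (pointBundle ψK) := by
    let X := ξ₁.baseChange φbar
    let g : LB.Mor φK ξ X := ((ξ.toBaseChange φ₁).comp (ξ₁.toBaseChange φbar)).congr hφbar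
    have eX : (frameBundle (isFrame_push φbar h₁')).Isomorphic X :=
      ⟨(frameMor φbar h₁').targetIso (LB.Mor.isoTrans e₁.some (ξ₁.toBaseChange φbar))⟩
    exact (eX.trans ⟨g.targetIso gξ⟩).trans iso.symm
  have hS : pointFrame ψK = Submodule.span (D.A K 0)
      ((push N₀ φbar).f '' (S₁ : Set (bc N₀ (Localization.Away r)).M)) := by
    have : Subsingleton ((frameBundle (isFrame_pointFrame ψK)).hom (bc N₀ K)).H1 := hH1
    exact frame_unique hdeg (isFrame_pointFrame ψK) (isFrame_push φbar h₁') isoK.symm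
  have hχK : φbar.comp χ₁ = ψK.comp (univHom N₀ β₀ f) := by
    have := hasCoords_pointFrame ψK
    rw [hS] at this
    exact (hχ₁.map φbar).hom_unique this
  -- shrink so that `f` becomes invertible
  obtain ⟨⟨a, ⟨_, m, rfl⟩⟩, ha⟩ := IsLocalization.surj (Submonoid.powers r) (χ₁ f)
  have hφ₁ : ∀ x, φbar (φ₁ x) = φK x := fun x => AlgHom.congr_fun hφbar x
  have ha0 : φK a ≠ 0 := by
    have hu : IsUnit (φbar (χ₁ f)) := by
      rw [show φbar (χ₁ f) = ψK (univHom N₀ β₀ f f) from AlgHom.congr_fun hχK f]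
      exact (IsLocalization.Away.algebraMap_isUnit (S := Away N₀ β₀ f) f).map ψK
    have e := congrArg φbar ha
    rw [map_mul] at e
    rw [← hφ₁, ← show _ = φbar (φ₁ a) from e, show algebraMap R (Localization.Away r) (r ^ m) =
      φ₁ (r ^ m) from rfl, hφ₁, map_pow]
    exact mul_ne_zero hu.ne_zero (pow_ne_zero m hr)
  refine ⟨r * a, fun hmem => ?_, ?_⟩
  · have hz : φK (r * a) = 0 := hmem
    rw [map_mul] at hz
    exact (mul_eq_zero.1 hz).elim hr ha0
  let φ₂ : R →ₐ[k] Localization.Away (r * a) := IsScalarTower.toAlgHom k R _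
  have hu₂ : IsUnit (φ₂ (r * a)) := IsLocalization.Away.algebraMap_isUnit (r * a)
  rw [map_mul, IsUnit.mul_iff] at hu₂
  obtain ⟨j, hj⟩ := exists_away_lift r φ₂ hu₂.1
  have hju : IsUnit ((j.comp χ₁) f) := by
    have e := congrArg j ha
    rw [map_mul] at e
    refine isUnit_of_mul_isUnit_left (y := j (φ₁ (r ^ m))) ?_
    rw [AlgHom.comp_apply, show j (χ₁ f) * j (φ₁ (r ^ m)) = j (φ₁ a) from e,
      show j (φ₁ a) = φ₂ a from AlgHom.congr_fun hj a]
    exact hu₂.2
  obtain ⟨ψ, -, hψS⟩ := exists_point (hχ₁.map j) hju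
  refine ⟨ψ, ξ₁.baseChange j, pointBundle ψ,
    ⟨((ξ.toBaseChange φ₁).comp (ξ₁.toBaseChange j)).congr hj⟩, ⟨pointMor ψ⟩,
    (frameBundle_congr (isFrame_pointFrame ψ) (isFrame_push j h₁') hψS).trans
      ⟨(frameMor j h₁').targetIso (LB.Mor.isoTrans e₁.some (ξ₁.toBaseChange j))⟩⟩

/-- The locus of a family is open and contains every point of the piece. -/
theorem exists_locus (hdeg : N₀.deg = D.genus)
    [Subsingleton ((univBundle N₀ β₀ f).hom (bc N₀ (Away N₀ β₀ f))).H1]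
    (R : Type u) [CommRing R] [Algebra k R] (ξ : LB D R) (hξ : ξ.FibreDegZero) :
    ∃ W : TopologicalSpace.Opens (PrimeSpectrum R),
      (∀ (R' : Type u) [CommRing R'] [Algebra k R'] (φ : R →ₐ[k] R')
        (ψ : Away N₀ β₀ f →ₐ[k] R') (ξ' L : LB D R'),
        LB.Mor φ ξ ξ' → LB.Mor ψ (univBundle N₀ β₀ f) L → L.Isomorphic ξ' →
          Set.range (PrimeSpectrum.comap φ.toRingHom) ⊆ W) ∧
      ∀ p ∈ W, MemLocus N₀ β₀ f ξ p := by
  refine ⟨⟨{p | MemLocus N₀ β₀ f ξ p}, isOpen_memLocus ξ⟩, ?_, fun p hp => hp⟩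
  intro R' _ _ φ ψ ξ' L gξ gL e
  rintro _ ⟨q, rfl⟩
  let K := AlgebraicClosure q.asIdeal.ResidueField
  let χ : R' →ₐ[k] K :=
    (IsScalarTower.toAlgHom k q.asIdeal.ResidueField K).comp (IsScalarTower.toAlgHom k R' _)
  have hq : RingHom.ker χ = q.asIdeal := by
    ext x
    rw [RingHom.mem_ker]
    show algebraMap q.asIdeal.ResidueField K (algebraMap R' _ x) = 0 ↔ _
    rw [map_eq_zero, Ideal.algebraMap_residueField_eq_zero]
  have hp : pointOf (χ.comp φ) = PrimeSpectrum.comap φ.toRingHom q := by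
    refine PrimeSpectrum.ext ?_
    show RingHom.ker (χ.comp φ) = Ideal.comap φ q.asIdeal
    exact Ideal.ext fun x => SetLike.ext_iff.1 hq (φ x)
  show MemLocus N₀ β₀ f ξ _
  rw [← hp]
  let g : LB.Mor (χ.comp ψ) (univBundle N₀ β₀ f) (ξ'.baseChange χ) :=
    (gL.transIso e.some).comp (ξ'.toBaseChange χ)
  exact memLocus_of_point hdeg hξ (gξ.comp (ξ'.toBaseChange χ))
    ⟨(pointMor (χ.comp ψ)).targetIso g⟩

end Fermat.Agent.Jac.Chart

end
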