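import Fermat.Agent.Jac.Ops
import Fermat.Agent.Jac.Cohom.BaseChange

/-!
# Frames: sublattices of the first chart whose quotient has given sections as a basis

The data underlying the charts of the Jacobian, with their behaviour under base change.
-/

set_option autoImplicit false

universe u

noncomputable section

open TensorProduct

namespace Fermat.Agent.Jac

variable {k : Type u} [Field k] {D : CurveData k}
variable {R R' : Type u} [CommRing R] [Algebra k R] [CommRing R'] [Algebra k R']

/-- The kernel of a base change along a surjection. -/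
theorem mem_smul_top_of_isBaseChange {A A' M M' : Type u} [CommRing A] [CommRing A'] [Algebra A A']
    [AddCommGroup M] [Module A M] [AddCommGroup M'] [Module A M'] [Module A' M']
    [IsScalarTower A A' M'] {f : M →ₗ[A] M'} (hf : IsBaseChange A' f)
    (hA : Function.Surjective (algebraMap A A')) {x : M} (hx : f x = 0) :
    x ∈ RingHom.ker (algebraMap A A') • (⊤ : Submodule A M) := by
  have h1 : (1 : A') ⊗ₜ[A] x = 0 := hf.equiv.injective (by
    rw [IsBaseChange.equiv_tmul, map_zero, one_smul, hx])
  let e : (A ⧸ RingHom.ker (algebraMap A A')) ≃ₐ[A] A' :=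
    Ideal.quotientKerAlgEquivOfSurjective (f := Algebra.ofId A A') hA
  have h2 : (Ideal.Quotient.mk (RingHom.ker (algebraMap A A')) 1) ⊗ₜ[A] x = 0 :=
    (LinearEquiv.rTensor M e.toLinearEquiv).injective (by
      rw [map_zero, LinearEquiv.rTensor_tmul]
      exact (congrArg (· ⊗ₜ[A] x) (map_one e)).trans h1)
  have h3 := congrArg (TensorProduct.quotTensorEquivQuotSMul M (RingHom.ker (algebraMap A A'))) h2
  rwa [TensorProduct.quotTensorEquivQuotSMul_mk_tmul, map_zero, one_smul,
    Submodule.Quotient.mk_eq_zero] at h3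

namespace LB

variable {φ : R →ₐ[k] R'} {L : LB D R} {L' : LB D R'}

/-- The image of a chart submodule is spanned over the base by the images. -/
theorem Mor.span_image_base (g : Mor φ L L') (i : Fin 2) (S : Submodule (D.A R i) L.M) :
    (Submodule.span (D.A R' i) (g.f '' (S : Set L.M))).restrictScalars R' =
      Submodule.span R' (g.f '' (S : Set L.M)) := by
  refine le_antisymm (fun x hx => ?_) (Submodule.span_le_restrictScalars R' _ _)
  rw [Submodule.restrictScalars_mem] at hx
  suffices ∀ a : D.A R' i, a • x ∈ Submodule.span R' (g.f '' (S : Set L.M)) by simpa using this 1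
  induction hx using Submodule.span_induction with
  | mem y hy =>
    obtain ⟨m, hm, rfl⟩ := hy
    intro a
    induction a using TensorProduct.induction_on with
    | zero => simp
    | add a b ha hb => rw [add_smul]; exact add_mem ha hb
    | tmul r b =>
      rw [show r ⊗ₜ[k] b = r • ((1 : R') ⊗ₜ[k] b) by simp [TensorProduct.smul_tmul'], smul_assoc]
      refine Submodule.smul_mem _ r
        (Submodule.subset_span ⟨((1 : R) ⊗ₜ[k] b) • m, S.smul_mem _ hm, ?_⟩)
      rw [g.f_smul_chart]
      simp [CurveData.mapA]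
  | zero => simp
  | add a b _ _ ha hb => intro c; rw [smul_add]; exact add_mem (ha c) (hb c)
  | smul a y _ hy => intro c; rw [smul_smul]; exact hy _

/-- Semilinear maps on a lattice extend along a base change. -/
theorem Mor.exists_lift (g : Mor φ L L') (i : Fin 2) {P : Type u} [AddCommGroup P] [Module R' P]
    (h : L.L i →+ P) (hh : ∀ (r : R) (m : L.L i), h (r • m) = φ r • h m) :
    ∃ h' : (L'.L i).restrictScalars R' →ₗ[R'] P, ∀ m : L.L i, h' ⟨g.f m, g.map_mem m.2⟩ = h m := by
  let : Algebra R R' := φ.toRingHom.toAlgebra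
  have : IsScalarTower k R R' := IsScalarTower.of_algebraMap_eq fun c => (φ.commutes c).symm
  let : Module R L'.M := Module.compHom L'.M φ.toRingHom
  have : IsScalarTower R R' L'.M := IsScalarTower.of_algebraMap_smul fun _ _ => rfl
  let : Module R P := Module.compHom P φ.toRingHom
  have : IsScalarTower R R' P := IsScalarTower.of_algebraMap_smul fun _ _ => rfl
  have e : φ = IsScalarTower.toAlgHom k R R' := AlgHom.ext fun _ => rfl
  let g' : Mor (IsScalarTower.toAlgHom k R R') L L' := ⟨g.f, g.map_smul, g.span_map⟩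
  let h₀ : L.L i →ₗ[R] P := { toFun := h, map_add' := map_add h, map_smul' := hh }
  exact ⟨(g'.isBaseChange_lattice i).lift h₀, fun m => (g'.isBaseChange_lattice i).lift_eq h₀ m⟩

/-- Transport of a morphism along an equality of homomorphisms. -/
def Mor.congr {ψ : R →ₐ[k] R'} (e : φ = ψ) (g : Mor φ L L') : Mor ψ L L' where
  f := g.f
  map_smul a m := e ▸ g.map_smul a m
  span_map := g.span_map

/-- A sublattice with the sections `β` as a basis of the quotient. -/
structure IsFrame (N : LB D R) {g : ℕ} (β : Fin g → N.M) (S : Submodule (D.A R 0) N.M) : Prop where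
  le : S ≤ N.L 0
  mem : ∀ i, β i ∈ N.L 0
  existsUnique : ∀ m ∈ N.L 0, ∃! c : Fin g → R, m - ∑ i, c i • β i ∈ S

namespace IsFrame

variable {N : LB D R} {g : ℕ} {β : Fin g → N.M} {S : Submodule (D.A R 0) N.M}

/-- A frame is stable under scalars of the base. -/
theorem smul_mem (r : R) {x : N.M} (hx : x ∈ S) : r • x ∈ S := S.smul_of_tower_mem r hx

theorem exists_coords (h : N.IsFrame β S) (m : (N.L 0).restrictScalars R) :
    ∃ c : Fin g → R, (m : N.M) - ∑ i, c i • β i ∈ S := (h.existsUnique _ m.2).exists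

theorem coords_unique (h : N.IsFrame β S) {m : N.M} (hm : m ∈ N.L 0) {c c' : Fin g → R}
    (hc : m - ∑ i, c i • β i ∈ S) (hc' : m - ∑ i, c' i • β i ∈ S) : c = c' :=
  (h.existsUnique m hm).unique hc hc'

/-- The coordinates of a section in the quotient. -/
def coords (h : N.IsFrame β S) (m : (N.L 0).restrictScalars R) : Fin g → R :=
  (h.exists_coords m).choose

theorem sub_coords_mem (h : N.IsFrame β S) (m : (N.L 0).restrictScalars R) :
    (m : N.M) - ∑ i, h.coords m i • β i ∈ S := (h.exists_coords m).choose_spec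

/-- The coordinates in the quotient, linearly. -/
def proj (h : N.IsFrame β S) : (N.L 0).restrictScalars R →ₗ[R] (Fin g → R) where
  toFun := h.coords
  map_add' m m' := h.coords_unique (m + m').2 (h.sub_coords_mem _) (by
    have := add_mem (h.sub_coords_mem m) (h.sub_coords_mem m')
    rw [← add_sub_add_comm, ← Finset.sum_add_distrib] at this
    simpa only [Pi.add_apply, add_smul, Submodule.coe_add] using this)
  map_smul' r m := h.coords_unique (r • m).2 (h.sub_coords_mem _) (by
    have := smul_mem r (h.sub_coords_mem m)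
    rw [smul_sub, Finset.smul_sum] at this
    simpa only [Pi.smul_apply, smul_eq_mul, mul_smul, RingHom.id_apply,
      SetLike.val_smul] using this)

/-- A section differs from the combination of the frame given by its coordinates by an element of
the sublattice. -/
theorem sub_proj_mem (h : N.IsFrame β S) (m : (N.L 0).restrictScalars R) :
    (m : N.M) - ∑ i, h.proj m i • β i ∈ S := h.sub_coords_mem m

theorem proj_eq (h : N.IsFrame β S) {m : (N.L 0).restrictScalars R} {c : Fin g → R}
    (hc : (m : N.M) - ∑ i, c i • β i ∈ S) : h.proj m = c :=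
  h.coords_unique m.2 (h.sub_proj_mem m) hc

/-- The sublattice consists of the sections with coordinates zero. -/
theorem mem_iff (h : N.IsFrame β S) (m : (N.L 0).restrictScalars R) :
    (m : N.M) ∈ S ↔ h.proj m = 0 := by
  refine ⟨fun hm => h.proj_eq (by simpa using hm), fun hm => ?_⟩
  simpa [hm] using h.sub_proj_mem m

theorem proj_basis (h : N.IsFrame β S) (i : Fin g) :
    h.proj ⟨β i, h.mem i⟩ = Pi.single i 1 :=
  h.proj_eq (by rw [Finset.sum_eq_single_of_mem i (Finset.mem_univ i) fun j _ hj => by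
    rw [Pi.single_eq_of_ne hj, zero_smul]]; simp)

/-- A frame from a linear map with stable kernel. -/
theorem of_proj (π : (N.L 0).restrictScalars R →ₗ[R] (Fin g → R)) (hS : S ≤ N.L 0)
    (hmem : ∀ i, β i ∈ N.L 0) (hβ : ∀ i, π ⟨β i, hmem i⟩ = Pi.single i 1)
    (hker : ∀ m : (N.L 0).restrictScalars R, (m : N.M) ∈ S ↔ π m = 0) :
    N.IsFrame β S := by
  refine ⟨hS, hmem, fun m hm => ?_⟩
  have key : ∀ c : Fin g → R, m - ∑ i, c i • β i ∈ S ↔ π ⟨m, hm⟩ = c := by
    intro c
    have hx : m - ∑ i, c i • β i ∈ N.L 0 :=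
      sub_mem hm (sum_mem fun i _ => (N.L 0).smul_of_tower_mem (c i) (hmem i))
    have e : (⟨_, hx⟩ : (N.L 0).restrictScalars R) =
        ⟨m, hm⟩ - ∑ i, c i • (⟨β i, hmem i⟩ : (N.L 0).restrictScalars R) := Subtype.ext (by simp)
    rw [hker ⟨_, hx⟩, e, map_sub, map_sum, sub_eq_zero]
    simp only [map_smul, hβ, ← pi_eq_sum_univ' c]
  exact ⟨π ⟨m, hm⟩, (key _).2 rfl, fun c hc => ((key c).1 hc).symm⟩

/-- The submodule is determined by the coordinates. -/
theorem eq_of_proj (h : N.IsFrame β S) {S' : Submodule (D.A R 0) N.M} (h' : N.IsFrame β S')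
    (e : ∀ m, h.proj m = h'.proj m) : S = S' := by
  ext x
  constructor <;> intro hx
  · exact (h'.mem_iff ⟨x, h.le hx⟩).2 ((e _).symm.trans ((h.mem_iff _).1 hx))
  · exact (h.mem_iff ⟨x, h'.le hx⟩).2 ((e _).trans ((h'.mem_iff _).1 hx))

/-- The quotient is free on the sections. -/
theorem exists_quotEquiv (h : N.IsFrame β S) :
    Nonempty ((Fin g → R) ≃ₗ[R] (N.L 0) ⧸ S.comap (N.L 0).subtype) := by
  let T := S.comap (N.L 0).subtype
  let f : (Fin g → R) →ₗ[R] (N.L 0) ⧸ T :=
    (T.mkQ.restrictScalars R).comp (∑ i, (LinearMap.proj i).smulRight (⟨β i, h.mem i⟩ : N.L 0))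
  have hf : ∀ c, f c = T.mkQ (∑ i, c i • (⟨β i, h.mem i⟩ : N.L 0)) := fun c => by simp [f]
  refine ⟨LinearEquiv.ofBijective f ⟨(injective_iff_map_eq_zero f).2 fun c hc => ?_, fun x => ?_⟩⟩
  · rw [hf, Submodule.mkQ_apply, Submodule.Quotient.mk_eq_zero, Submodule.mem_comap] at hc
    have h0 := h.coords_unique (m := ∑ i, c i • β i)
      (sum_mem fun i _ => (N.L 0).smul_of_tower_mem (c i) (h.mem i)) (c := c) (c' := 0)
      (by simp) (by simpa [Submodule.coe_sum] using hc)
    exact h0
  · obtain ⟨m, rfl⟩ := Submodule.Quotient.mk_surjective _ x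
    refine ⟨h.proj ⟨m, m.2⟩, ?_⟩
    rw [hf, eq_comm, Submodule.mkQ_apply, Submodule.Quotient.eq, Submodule.mem_comap]
    have := h.sub_proj_mem ⟨m, m.2⟩
    simpa [Submodule.coe_sum] using this

/-- A frame is a sublattice. -/
theorem isSubLattice (h : N.IsFrame β S) : N.IsSubLattice 0 S :=
  have e := h.exists_quotEquiv.some
  { le := h.le, finite := Module.Finite.equiv e, projective := Module.Projective.of_equiv e }

/-- Over a field the quotient by a frame has dimension the number of its sections. -/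
theorem finrank_quot {K : Type u} [Field K] [Algebra k K] {N : LB D K} {β : Fin g → N.M}
    {S : Submodule (D.A K 0) N.M} (h : N.IsFrame β S) :
    Module.finrank K ((N.L 0) ⧸ S.comap (N.L 0).subtype) = g := by
  rw [← h.exists_quotEquiv.some.finrank_eq, Module.finrank_fin_fun]

variable {N' : LB D R'}

/-- Frames map to frames, with the coordinates mapped. -/
theorem map (h : N.IsFrame β S) (m : Mor φ N N') :
    ∃ h' : N'.IsFrame (fun i => m.f (β i)) (Submodule.span (D.A R' 0) (m.f '' (S : Set N.M))),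
      ∀ x : (N.L 0).restrictScalars R,
        h'.proj ⟨m.f x, m.map_mem x.2⟩ = fun i => φ (h.proj x i) := by
  -- the coordinates of the frame, extended along the base change
  let π₀ : N.L 0 →+ (Fin g → R') :=
    AddMonoidHom.mk' (fun x i => φ (h.proj ⟨x, x.2⟩ i)) fun x y => funext fun i => by
      have e := congrFun (map_add h.proj ⟨(x : N.M), x.2⟩ ⟨y, y.2⟩) i
      exact (congrArg φ e).trans (map_add φ _ _)
  obtain ⟨π, hπ⟩ := m.exists_lift 0 π₀ fun r x => funext fun i => by
    show φ (h.proj ⟨(r • x : N.L 0), _⟩ i) = φ r * φ (h.proj ⟨x, x.2⟩ i)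
    rw [← map_mul]
    exact congrArg φ (congrFun (map_smul h.proj r ⟨(x : N.M), x.2⟩) i)
  set S' := Submodule.span (D.A R' 0) (m.f '' (S : Set N.M)) with hS'
  have hS'le : S' ≤ N'.L 0 := Submodule.span_le.2 (by
    rintro _ ⟨x, hx, rfl⟩
    exact m.map_mem (h.le hx))
  have hmemS' : ∀ {x}, x ∈ S → m.f x ∈ S' := fun hx => Submodule.subset_span ⟨_, hx, rfl⟩
  let incl := ((N'.L 0).restrictScalars R').subtype
  -- `π` vanishes on the images of `S`, which span `S'` over the base
  have hker : Submodule.span R' (m.f '' (S : Set N.M)) ≤ (LinearMap.ker π).map incl := by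
    refine Submodule.span_le.2 ?_
    rintro _ ⟨x, hx, rfl⟩
    refine ⟨⟨m.f x, m.map_mem (h.le hx)⟩, funext fun i => ?_, rfl⟩
    rw [hπ ⟨x, h.le hx⟩]
    show φ (h.proj ⟨x, h.le hx⟩ i) = 0
    rw [(h.mem_iff ⟨x, h.le hx⟩).1 hx, Pi.zero_apply, map_zero]
  have hzero : ∀ y (hy : y ∈ S'), π ⟨y, hS'le hy⟩ = 0 := fun y hy => by
    obtain ⟨z, hz, rfl⟩ := hker (by rw [← m.span_image_base 0 S]; exact hy)
    exact hz
  -- a vector minus its coordinates lies in `S'`: this holds on the images of `N.L 0`, which span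
  let res := incl - (Fintype.linearCombination R' fun i => m.f (β i)).comp π
  have hres : Submodule.span R' (m.f '' (N.L 0 : Set N.M)) ≤
      ((S'.restrictScalars R').comap res).map incl := by
    refine Submodule.span_le.2 ?_
    rintro _ ⟨x, hx, rfl⟩
    refine ⟨⟨m.f x, m.map_mem hx⟩, ?_, rfl⟩
    show m.f x - Fintype.linearCombination R' (fun i => m.f (β i)) (π ⟨m.f x, _⟩) ∈ S'
    rw [hπ ⟨x, hx⟩, Fintype.linearCombination_apply]
    simpa only [π₀, AddMonoidHom.mk'_apply, map_sub, map_sum, m.f_smul_base] using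
      hmemS' (h.sub_proj_mem ⟨x, hx⟩)
  have hdiff : ∀ y : (N'.L 0).restrictScalars R', (y : N'.M) - ∑ i, π y i • m.f (β i) ∈ S' :=
    fun y => by
      obtain ⟨z, hz, hzy⟩ := hres (by rw [← m.span_base 0]; exact y.2)
      obtain rfl : z = y := Subtype.ext hzy
      simpa [res, incl, Fintype.linearCombination_apply] using hz
  have hπβ : ∀ i, π ⟨m.f (β i), m.map_mem (h.mem i)⟩ = Pi.single i 1 := fun i => by
    rw [hπ ⟨β i, h.mem i⟩]
    funext j
    show φ (h.proj ⟨β i, h.mem i⟩ j) = _
    rw [h.proj_basis]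
    rcases eq_or_ne j i with rfl | hj <;> simp [*]
  have h' : N'.IsFrame (fun i => m.f (β i)) S' :=
    of_proj π hS'le (fun i => m.map_mem (h.mem i)) hπβ fun y =>
      ⟨fun hy => hzero _ hy, fun hy => by simpa [hy] using hdiff y⟩
  refine ⟨h', fun x => h'.proj_eq ?_⟩
  have := hdiff ⟨m.f x, m.map_mem x.2⟩
  rw [hπ ⟨x, x.2⟩] at this
  exact this

end IsFrame

end LB

end Fermat.Agent.Jac

end
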