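import Fermat.Agent.Jac.Chart.Frame
import Fermat.Agent.Jac.Field

/-!
# Frames with isomorphic sub-bundles are equal

If `hom (N(S), N)` has no first cohomology, its sections are the multiples of the inclusion.
-/

set_option autoImplicit false

universe u

noncomputable section

open TensorProduct

namespace Fermat.Agent.Jac

variable {k : Type u} [Field k] {D : CurveData k}
variable {R R' : Type u} [CommRing R] [Algebra k R] [CommRing R'] [Algebra k R']
variable {K : Type u} [Field K] [Algebra k K]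

namespace LB

/-- Vanishing of the first cohomology is invariant under isomorphism. -/
theorem Iso.subsingleton_H1 {L L' : LB D R} (e : L.Iso L') [Subsingleton L.H1] :
    Subsingleton L'.H1 := by
  have h : L.boundary = ⊤ := Submodule.Quotient.subsingleton_iff.mp inferInstance
  refine Submodule.Quotient.subsingleton_iff.mpr (eq_top_iff.mpr fun m _ => ?_)
  obtain ⟨x, hx, y, hy, hxy⟩ :=
    Submodule.mem_sup.mp (h ▸ Submodule.mem_top : e.e.symm m ∈ L.boundary)
  refine Submodule.mem_sup.mpr ⟨e.e x, (e.mem_iff 0 x).mpr hx, e.e y, (e.mem_iff 1 y).mpr hy, ?_⟩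
  rw [← map_add, hxy, LinearEquiv.apply_symm_apply]

/-- Bundles over the ground field keep their degree in every field extension. -/
theorem deg_eq_of_mor {L₀ : LB D k} {φ : k →ₐ[k] K} {L : LB D K} (g : Mor φ L₀ L) :
    L.deg = L₀.deg := by
  obtain ⟨f, -, hf⟩ := L₀.exists_locallyConstant_chi
  rw [deg, deg, hf K φ L g, hf k (AlgHom.id k k) L₀ (Mor.id L₀), chi_unit, chi_unit]
  exact congrArg (fun p => f p - _) (Subsingleton.elim _ _)

theorem nontrivial_M (L : LB D K) : Nontrivial L.M := by
  refine not_subsingleton_iff_nontrivial.mp fun h => ?_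
  exact one_ne_zero (α := D.A01 K) ((Module.Invertible.toModuleEnd_bijective (D.A01 K) L.M).1
    (LinearMap.ext fun m => Subsingleton.elim _ _))

/-- Over a field, for a frame of genus length on a bundle of degree the genus, the sections of
`hom (N(S), N)` have dimension one if its first cohomology vanishes. -/
theorem IsFrame.h0_hom_subBundle {N : LB D K} {β : Fin D.genus → N.M} {S : Submodule (D.A K 0) N.M}
    (h : N.IsFrame β S) (hN : N.deg = D.genus)
    [Subsingleton ((N.subBundle 0 S h.isSubLattice).hom N).H1] :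
    ((N.subBundle 0 S h.isSubLattice).hom N).h0 = 1 := by
  have h1 := h0_eq_of_subsingleton ((N.subBundle 0 S h.isSubLattice).hom N)
  have h2 := deg_hom (N.subBundle 0 S h.isSubLattice) N
  rw [deg_subBundle N h.isSubLattice, h.finrank_quot, hN] at h2
  rw [deg, chi_unit] at h2
  omega

/-- If the first cohomology vanishes, the sections that become zero along a surjection have
coefficients in the kernel. -/
theorem Mor.mem_smul_H0_of_eq_zero {φ : R →ₐ[k] R'} {L : LB D R} {L' : LB D R'} (g : Mor φ L L')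
    [Subsingleton L.H1] (hφ : Function.Surjective φ) {x : L.H0} (hx : g.f (x : L.M) = 0) :
    x ∈ RingHom.ker φ • (⊤ : Submodule R L.H0) := by
  let : Algebra R R' := φ.toRingHom.toAlgebra
  have : IsScalarTower k R R' := IsScalarTower.of_algebraMap_eq fun a => (φ.commutes a).symm
  let : Module R L'.M := Module.compHom L'.M φ.toRingHom
  have : IsScalarTower R R' L'.M := IsScalarTower.of_algebraMap_smul fun _ _ => rfl
  let g' : Mor (IsScalarTower.toAlgHom k R R') L L' := ⟨g.f, g.map_smul, g.span_map⟩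
  exact mem_smul_top_of_isBaseChange g'.isBaseChange_H0 hφ (Subtype.ext hx)

/-- If the first cohomology of `hom (N(S), N)` vanishes and `N` has degree the genus on all fibres,
its sections are the multiples of the inclusion. -/
theorem IsFrame.H0_hom_le_span {N : LB D R} {β : Fin D.genus → N.M} {S : Submodule (D.A R 0) N.M}
    (h : N.IsFrame β S) [Subsingleton ((N.subBundle 0 S h.isSubLattice).hom N).H1]
    (hN : ∀ (K : Type u) [Field K] [Algebra k K] (φ : R →ₐ[k] K) (L : LB D K),
      Mor φ N L → L.deg = D.genus) :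
    ((N.subBundle 0 S h.isSubLattice).hom N).H0 ≤ Submodule.span R {N.subIncl h.isSubLattice} := by
  set B := N.subBundle 0 S h.isSubLattice
  set H := B.hom N
  have := H.finite_H0'
  let ι : H.H0 := ⟨N.subIncl h.isSubLattice, N.subIncl_mem h.isSubLattice⟩
  suffices hspan : (⊤ : Submodule R H.H0) ≤ Submodule.span R {ι} by
    intro x hx
    have := Submodule.mem_map_of_mem (f := H.H0.subtype) (hspan (Submodule.mem_top (x := ⟨x, hx⟩)))
    rwa [Submodule.map_span, Set.image_singleton] at this
  by_contra hne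
  have hann : (Submodule.span R {ι}).colon Set.univ ≠ ⊤ := fun htop => hne fun x _ => by
    simpa using Submodule.mem_colon.mp ((Ideal.eq_top_iff_one _).mp htop) x trivial
  -- Otherwise reduce modulo a maximal ideal `m` containing the annihilator of the quotient.
  obtain ⟨m, hm, hle⟩ := Ideal.exists_le_maximal _ hann
  let _ : Field (R ⧸ m) := Ideal.Quotient.field m
  let φ : R →ₐ[k] R ⧸ m := Ideal.Quotient.mkₐ k m
  let gN : Mor φ N (N.baseChange φ) := N.toBaseChange φ
  obtain ⟨h', -⟩ := h.map gN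
  set gH := (gN.sub h.isSubLattice).hom gN
  have hH1 : Subsingleton
      (((N.baseChange φ).subBundle 0 _ h'.isSubLattice).hom (N.baseChange φ)).H1 :=
        gH.subsingleton_H1
  have hone := h'.h0_hom_subBundle (hN _ φ _ gN)
  have hι : gH.f ι ≠ 0 := by
    intro h0
    have := nontrivial_M ((N.baseChange φ).subBundle 0 _ (h.isSubLattice.map gN))
    obtain ⟨x, hx⟩ := exists_ne (0 : ((N.baseChange φ).subBundle 0 _ (h.isSubLattice.map gN)).M)
    refine hx ((Submodule.span_le.mpr ?_ : Submodule.span _ _ ≤ (⊥ : Submodule (D.A01 (R ⧸ m)) _))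
      ((gN.sub h.isSubLattice).span_image_eq_top 0 ▸ Submodule.mem_top (x := x)))
    rintro _ ⟨y, -, rfl⟩
    refine Subtype.ext ?_
    have := Mor.hom_apply (gN.sub h.isSubLattice) gN (ι : H.M) y
    rw [h0] at this
    exact this.symm
  have hsurj : Function.Surjective φ := Ideal.Quotient.mkₐ_surjective k m
  -- On that fibre the sections form a line, so mod `m` each one is a multiple of the inclusion.
  have key : ∀ x : H.H0, ∃ r : R, x - r • ι ∈ m • (⊤ : Submodule R H.H0) := by
    intro x
    obtain ⟨c, hc⟩ := exists_smul_eq_of_finrank_eq_one hone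
      (x := (⟨gH.f ι, gH.map_H0 ι.2⟩ :
        (((N.baseChange φ).subBundle 0 _ (h.isSubLattice.map gN)).hom (N.baseChange φ)).H0))
      (fun e => hι (congrArg Subtype.val e)) ⟨gH.f x, gH.map_H0 x.2⟩
    obtain ⟨r, rfl⟩ := hsurj c
    refine ⟨r, ?_⟩
    have hmem := gH.mem_smul_H0_of_eq_zero hsurj (x := x - r • ι) (by
      rw [AddSubgroupClass.coe_sub, SetLike.val_smul, map_sub, gH.f_smul_base, sub_eq_zero]
      exact (congrArg Subtype.val hc).symm)
    rwa [show RingHom.ker φ = m from Ideal.Quotient.mkₐ_ker k m] at hmem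
  set Q := H.H0 ⧸ Submodule.span R {ι}
  have hQ : (⊤ : Submodule R Q) ≤ m • ⊤ := by
    intro q _
    obtain ⟨x, rfl⟩ := Submodule.Quotient.mk_surjective _ q
    obtain ⟨r, hr⟩ := key x
    have h2 := Submodule.mem_map_of_mem (f := (Submodule.span R {ι}).mkQ) hr
    rw [Submodule.map_smul''] at h2
    have h0 : Submodule.Quotient.mk (p := Submodule.span R {ι}) (r • ι) = 0 :=
      (Submodule.Quotient.mk_eq_zero _).mpr (Submodule.smul_mem _ r (Submodule.subset_span rfl))
    rw [Submodule.mkQ_apply, Submodule.Quotient.mk_sub, h0, sub_zero] at h2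
    exact Submodule.smul_mono le_rfl le_top h2
  -- By Nakayama the quotient is killed outside `m`, a contradiction.
  obtain ⟨r, hr1, hr2⟩ := Submodule.exists_sub_one_mem_and_smul_eq_zero_of_fg_of_le_smul m ⊤
    Module.Finite.fg_top hQ
  have hr : r ∈ (Submodule.span R {ι}).colon Set.univ := Submodule.mem_colon.mpr fun x _ => by
    have := hr2 (Submodule.Quotient.mk x) trivial
    rwa [← Submodule.Quotient.mk_smul, Submodule.Quotient.mk_eq_zero] at this
  exact hm.ne_top ((Ideal.eq_top_iff_one m).mpr (by simpa using sub_mem (hle hr) hr1))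

/-- Frames with isomorphic sub-bundles on a bundle of fibre degree the genus are equal, if the first
cohomology of `hom (N(S), N)` vanishes. -/
theorem IsFrame.eq_of_isomorphic {N : LB D R} {β : Fin D.genus → N.M}
    {S S' : Submodule (D.A R 0) N.M} (h : N.IsFrame β S) (h' : N.IsFrame β S')
    [Subsingleton ((N.subBundle 0 S h.isSubLattice).hom N).H1]
    (hN : ∀ (K : Type u) [Field K] [Algebra k K] (φ : R →ₐ[k] K) (L : LB D K),
      Mor φ N L → L.deg = D.genus)
    (e : (N.subBundle 0 S h.isSubLattice).Isomorphic (N.subBundle 0 S' h'.isSubLattice)) :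
    S = S' := by
  obtain ⟨e⟩ := e
  have := (e.hom (Iso.refl N)).subsingleton_H1
  have step : ∀ {S₁ S₂ : Submodule (D.A R 0) N.M} (h₁ : N.IsFrame β S₁) (h₂ : N.IsFrame β S₂)
      (f : (N.subBundle 0 S₁ h₁.isSubLattice).Iso (N.subBundle 0 S₂ h₂.isSubLattice))
      [Subsingleton ((N.subBundle 0 S₁ h₁.isSubLattice).hom N).H1],
      ∃ r : R, ∀ x : (N.subBundle 0 S₁ h₁.isSubLattice).M, (f.e x).1 = r • x.1 := by
    intro S₁ S₂ h₁ h₂ f _
    let s : ((N.subBundle 0 S₁ h₁.isSubLattice).hom N).M :=
      toMap.symm ((toMap (N.subIncl h₂.isSubLattice)).comp f.e.toLinearMap)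
    have hs : s ∈ ((N.subBundle 0 S₁ h₁.isSubLattice).hom N).H0 :=
      ⟨fun x hx => ((f.mem_iff 0 x).mpr hx).1, fun x hx => ((f.mem_iff 1 x).mpr hx).1⟩
    obtain ⟨r, hr⟩ := Submodule.mem_span_singleton.mp (h₁.H0_hom_le_span hN hs)
    exact ⟨r, fun x => (congrArg (fun t => toMap t x) hr).symm⟩
  obtain ⟨r, hr⟩ := step h h' e
  obtain ⟨r', hr'⟩ := step h' h e.symm
  have main : ∀ {S₁ S₂ : Submodule (D.A R 0) N.M} (h₁ : N.IsFrame β S₁) (h₂ : N.IsFrame β S₂)
      (f : (N.subBundle 0 S₁ h₁.isSubLattice).Iso (N.subBundle 0 S₂ h₂.isSubLattice)) (a a' : R),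
      (∀ x, (f.e x).1 = a • x.1) → (∀ y, (f.symm.e y).1 = a' • y.1) → S₁ ≤ S₂ := by
    intro S₁ S₂ h₁ h₂ f a a' ha ha' x hx
    let x' : (N.subBundle 0 S₁ h₁.isSubLattice).M := ⟨x, Submodule.subset_span hx⟩
    have hfx : (f.e x').1 ∈ S₂ := ((f.mem_iff 0 x').mpr ⟨h₁.le hx, fun _ => hx⟩).2 rfl
    have hx' : a' • a • x = x := by
      have := ha' (f.e x')
      rw [show f.symm.e (f.e x') = x' from f.e.symm_apply_apply x', ha] at this
      exact this.symm
    rw [← hx']
    exact IsFrame.smul_mem a' (ha x' ▸ hfx)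
  exact le_antisymm (main h h' e r r' hr hr') (main h' h e.symm r' r hr' fun y => hr y)

/-- Near a prime of the base, bundles are trivial along the rational point. -/
theorem exists_evTrivial_near (L : LB D R) (P : PrimeSpectrum R) : ∃ r ∉ P.asIdeal,
    ∀ (R' : Type u) [CommRing R'] [Algebra k R'] (φ : R →ₐ[k] R'), IsUnit (φ r) →
      ∀ L' : LB D R', Mor φ L L' → L'.EvTrivial := by
  obtain ⟨ev, l, hl, -⟩ := exists_local_functional (D.A R 0) (L.L 0)
    (PrimeSpectrum.comap (D.evR R).toRingHom P)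
  refine ⟨D.evR R (ev l), hl, fun R' _ _ φ hu L' g => ?_⟩
  obtain ⟨n, -, φc, y, -, φc', -, -, -, hmap, hsum, -⟩ := g.exists_dual_basis_chart 0
  let ψ' : L'.L 0 →+ R' :=
    { toFun := fun x => ∑ j : Fin n, D.evR R' (φc' j x) * φ (D.evR R (ev (y j)))
      map_zero' := by simp
      map_add' := fun a b => by simp [add_mul, Finset.sum_add_distrib] }
  have hg : ∀ x : L.L 0, ψ' ⟨g.f x, g.map_mem x.2⟩ = φ (D.evR R (ev x)) := fun x => by
    change ∑ j, D.evR R' (φc' j _) * φ (D.evR R (ev (y j))) = _
    simp only [hmap, CurveData.evR_mapA, ← map_mul, ← map_sum]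
    congr 2
    conv_rhs => rw [← hsum x, map_sum]
    simp
  have hlin : ∀ (a : D.A R' 0) m, ψ' (a • m) = D.evR R' a * ψ' m := fun a m => by
    change ∑ j : Fin n, D.evR R' (φc' j (a • m)) * _ = D.evR R' a * ∑ j : Fin n, _
    simp [Finset.mul_sum, mul_assoc]
  obtain ⟨u, hu⟩ := hu
  refine ⟨ψ', hlin, fun r => ?_⟩
  exact ⟨algebraMap R' (D.A R' 0) (r * ↑u⁻¹) • ⟨g.f l, g.map_mem l.2⟩, by
    rw [hlin, hg, ← hu, AlgHom.commutes, Algebra.algebraMap_self_apply, mul_assoc, Units.inv_mul,
      mul_one]⟩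

end LB

end Fermat.Agent.Jac

end
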