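import Fermat.Agent.Jac.Chart.Frame

/-!
# The affine scheme of frames of a bundle over the ground field

The coordinates of the sections in the quotient generate its ring, which is of finite type.

The ring is `Ring`; its points are the frames (`exists_frame`, `exists_hom`,
`HasCoords.hom_unique`), and `finiteType` is the finiteness.
-/

set_option autoImplicit false

universe u

noncomputable section

open TensorProduct

namespace Fermat.Agent.Jac.Chart

variable {k : Type u} [Field k] {D : CurveData k}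
variable (N₀ : LB D k) {g : ℕ} (β₀ : Fin g → N₀.L 0)

/-! ### Base change of the bundle -/

/-- The base change of the indexing bundle. -/
def bc (R : Type u) [CommRing R] [Algebra k R] : LB D R := N₀.baseChange (Algebra.ofId k R)

/-- Its defining morphism. -/
def bcMor (R : Type u) [CommRing R] [Algebra k R] : LB.Mor (Algebra.ofId k R) N₀ (bc N₀ R) :=
  N₀.toBaseChange (Algebra.ofId k R)

/-- The given sections after base change. -/
def frameSec (R : Type u) [CommRing R] [Algebra k R] (i : Fin g) : (bc N₀ R).M :=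
  (bcMor N₀ R).f (β₀ i : N₀.M)

variable {R R' : Type u} [CommRing R] [Algebra k R] [CommRing R'] [Algebra k R']

/-- The base change maps between the base changes. -/
def push (h : R →ₐ[k] R') : LB.Mor h (bc N₀ R) (bc N₀ R') :=
  ((bc N₀ R).toBaseChange h).transIso
    ((((bcMor N₀ R).comp ((bc N₀ R).toBaseChange h)).congr
      (Subsingleton.elim _ (Algebra.ofId k R'))).targetIso (bcMor N₀ R'))

theorem push_apply (h : R →ₐ[k] R') (m : N₀.M) :
    (push N₀ h).f ((bcMor N₀ R).f m) = (bcMor N₀ R').f m :=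
  LB.Mor.targetIso_apply
    (((bcMor N₀ R).comp ((bc N₀ R).toBaseChange h)).congr (Subsingleton.elim _ _)) (bcMor N₀ R') m

/-- Base change carries the frame sections to the frame sections. -/
theorem push_frameSec (h : R →ₐ[k] R') :
    (fun i => (push N₀ h).f (frameSec N₀ β₀ R i)) = frameSec N₀ β₀ R' :=
  funext fun _ => push_apply N₀ h _

/-! ### The ring -/

/-- The coordinate variables. -/
abbrev Var : Type u := Fin g × N₀.L 0

/-- The polynomial variable of a coordinate. -/
def var (i : Fin g) (m : N₀.L 0) : MvPolynomial (Var N₀ (g := g)) k := MvPolynomial.X (i, m)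

/-- The relations between the coordinates. -/
def relations : Set (MvPolynomial (Var N₀ (g := g)) k) :=
  {x | ∃ i m m', x = var N₀ i (m + m') - var N₀ i m - var N₀ i m'} ∪
  {x | ∃ i, ∃ (c : k) (m : N₀.L 0), x = var N₀ i (c • m) - MvPolynomial.C c * var N₀ i m} ∪
  {x | ∃ i j, x = var N₀ i (β₀ j) - if i = j then 1 else 0} ∪
  {x | ∃ i, ∃ (a : D.A k 0) (m : N₀.L 0),
    x = var N₀ i (a • m) - ∑ j, var N₀ j m * var N₀ i (a • β₀ j)}

/-- The ring of frames. -/
abbrev Ring : Type u :=
  MvPolynomial (Var N₀ (g := g)) k ⧸ Ideal.span (relations N₀ β₀)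

/-- The coordinates. -/
def coord (i : Fin g) (m : N₀.L 0) : Ring N₀ β₀ := Ideal.Quotient.mk _ (var N₀ i m)

theorem mk_eq_zero {x : MvPolynomial (Var N₀ (g := g)) k} (hx : x ∈ relations N₀ β₀) :
    Ideal.Quotient.mk (Ideal.span (relations N₀ β₀)) x = 0 :=
  Ideal.Quotient.eq_zero_iff_mem.2 (Ideal.subset_span hx)

theorem coord_add (i : Fin g) (m m' : N₀.L 0) :
    coord N₀ β₀ i (m + m') = coord N₀ β₀ i m + coord N₀ β₀ i m' := by
  have := mk_eq_zero N₀ β₀ (Or.inl (Or.inl (Or.inl ⟨i, m, m', rfl⟩)))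
  rw [map_sub, map_sub, sub_sub, sub_eq_zero] at this
  exact this

theorem coord_smul (i : Fin g) (c : k) (m : N₀.L 0) :
    coord N₀ β₀ i (c • m) = c • coord N₀ β₀ i m := by
  have := mk_eq_zero N₀ β₀ (Or.inl (Or.inl (Or.inr ⟨i, c, m, rfl⟩)))
  rw [map_sub, map_mul, sub_eq_zero] at this
  exact this.trans (Algebra.smul_def c (coord N₀ β₀ i m)).symm

theorem coord_basis (i j : Fin g) : coord N₀ β₀ i (β₀ j) = if i = j then 1 else 0 := by
  have := mk_eq_zero N₀ β₀ (Or.inl (Or.inr ⟨i, j, rfl⟩))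
  rw [map_sub, sub_eq_zero] at this
  refine this.trans ?_
  split <;> simp

theorem coord_smul_chart (i : Fin g) (a : D.A k 0) (m : N₀.L 0) :
    coord N₀ β₀ i (a • m) = ∑ j, coord N₀ β₀ j m * coord N₀ β₀ i (a • β₀ j) := by
  have := mk_eq_zero N₀ β₀ (Or.inr ⟨i, a, m, rfl⟩)
  rw [map_sub, map_sum, sub_eq_zero] at this
  exact this.trans (Finset.sum_congr rfl fun j _ => map_mul _ _ _)

/-- The coordinates with values in a test algebra. -/
def coordHom (ψ : Ring N₀ β₀ →ₐ[k] R) : N₀.L 0 →ₗ[k] (Fin g → R) where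
  toFun m i := ψ (coord N₀ β₀ i m)
  map_add' m m' := funext fun i => by rw [coord_add, map_add]; rfl
  map_smul' c m := funext fun i => by rw [coord_smul, map_smul]; rfl

/-- A frame over `R` with the coordinates given by `ψ`. -/
def HasCoords (ψ : Ring N₀ β₀ →ₐ[k] R) (S : Submodule (D.A R 0) (bc N₀ R).M) : Prop :=
  ∃ h : (bc N₀ R).IsFrame (frameSec N₀ β₀ R) S, ∀ (m : N₀.L 0) (i : Fin g),
    h.proj ⟨(bcMor N₀ R).f (m : N₀.M), (bcMor N₀ R).map_mem m.2⟩ i = ψ (coord N₀ β₀ i m)

variable {N₀ β₀}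

/-! ### Frames and homomorphisms -/

/-- A submodule with coordinates given by a point of the ring of frames is a frame. -/
theorem HasCoords.isFrame {ψ : Ring N₀ β₀ →ₐ[k] R} {S : Submodule (D.A R 0) (bc N₀ R).M}
    (h : HasCoords N₀ β₀ ψ S) : (bc N₀ R).IsFrame (frameSec N₀ β₀ R) S := h.1

/-- Linear maps on the first chart are determined by the sections over the ground field. -/
theorem ext_bc {P : Type u} [AddCommGroup P] [Module R P]
    {f f' : ((bc N₀ R).L 0).restrictScalars R →ₗ[R] P}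
    (h : ∀ m : N₀.L 0, f ⟨(bcMor N₀ R).f (m : N₀.M), (bcMor N₀ R).map_mem m.2⟩ =
      f' ⟨(bcMor N₀ R).f (m : N₀.M), (bcMor N₀ R).map_mem m.2⟩) : f = f' := by
  refine LinearMap.ext fun y => ?_
  obtain ⟨y, hy⟩ := y
  have hy' : y ∈ Submodule.span R ((bcMor N₀ R).f '' (N₀.L 0 : Set N₀.M)) := by
    rw [← (bcMor N₀ R).span_base 0]; exact hy
  have hle := fun {z} (hz : z ∈ Submodule.span R ((bcMor N₀ R).f '' (N₀.L 0 : Set N₀.M))) =>
    show z ∈ ((bc N₀ R).L 0).restrictScalars R by rw [(bcMor N₀ R).span_base 0]; exact hz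
  revert hy
  induction hy' using Submodule.span_induction with
  | mem y hy =>
    obtain ⟨m, hm, rfl⟩ := hy
    exact fun _ => h ⟨m, hm⟩
  | zero => intro _; exact (map_zero f).trans (map_zero f').symm
  | add a b ha hb iha ihb =>
    intro _
    rw [show (⟨a + b, _⟩ : ((bc N₀ R).L 0).restrictScalars R) = ⟨a, hle ha⟩ + ⟨b, hle hb⟩ from rfl,
      map_add, map_add, iha, ihb]
  | smul r a ha iha =>
    intro _
    rw [show (⟨r • a, _⟩ : ((bc N₀ R).L 0).restrictScalars R) = r • ⟨a, hle ha⟩ from rfl,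
      map_smul, map_smul, iha]

/-- A functional taking the coordinates of `ψ` on the sections over the ground field turns the
action of the first chart into the relations between the coordinates. -/
private theorem coords_smul (ψ : Ring N₀ β₀ →ₐ[k] R)
    (π : ((bc N₀ R).L 0).restrictScalars R →ₗ[R] (Fin g → R))
    (hπ' : ∀ (m : N₀.L 0) (i : Fin g),
      π ⟨(bcMor N₀ R).f (m : N₀.M), (bcMor N₀ R).map_mem m.2⟩ i = ψ (coord N₀ β₀ i m))
    (hmem : ∀ i, frameSec N₀ β₀ R i ∈ (bc N₀ R).L 0) (a : D.A R 0) :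
    ∀ (x : (bc N₀ R).M) (hx : x ∈ ((bc N₀ R).L 0).restrictScalars R),
      π ⟨a • x, ((bc N₀ R).L 0).smul_mem a hx⟩ =
        ∑ j, π ⟨x, hx⟩ j •
          π ⟨a • frameSec N₀ β₀ R j, ((bc N₀ R).L 0).smul_mem a (hmem j)⟩ := by
  let N := bc N₀ R
  let b := bcMor N₀ R
  induction a using TensorProduct.induction_on with
  | zero =>
    intro x hx
    simp [show ∀ (z : N.M) (hz : z ∈ (N.L 0).restrictScalars R), z = 0 →
      π ⟨z, hz⟩ = 0 from fun z hz e => by subst e; exact map_zero π]
  | add a a' iha iha' =>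
    intro x hx
    have e : ∀ (z : N.M) (hz : z ∈ (N.L 0).restrictScalars R),
        π ⟨(a + a') • z, (N.L 0).smul_mem _ hz⟩ =
          π ⟨a • z, (N.L 0).smul_mem _ hz⟩ + π ⟨a' • z, (N.L 0).smul_mem _ hz⟩ := fun z hz => by
      rw [← map_add]; exact congrArg π (Subtype.ext (add_smul a a' z))
    rw [e x hx, iha x hx, iha' x hx, ← Finset.sum_add_distrib]
    refine Finset.sum_congr rfl fun j _ => ?_
    rw [e (frameSec N₀ β₀ R j) (hmem j), smul_add]
  | tmul r c =>
    -- For a pure tensor both sides are linear in `x`, so compare them on base changes of sections.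
    let f₁ : (N.L 0).restrictScalars R →ₗ[R] (N.L 0).restrictScalars R :=
      { toFun := fun x => ⟨(r ⊗ₜ[k] c) • (x : N.M), (N.L 0).smul_mem _ x.2⟩
        map_add' := fun x y => Subtype.ext (smul_add _ _ _)
        map_smul' := fun s x => Subtype.ext (smul_comm (r ⊗ₜ[k] c) s (x : N.M)) }
    let f₂ : (N.L 0).restrictScalars R →ₗ[R] (Fin g → R) :=
      ∑ j, ((LinearMap.proj j).comp π).smulRight (π (f₁ ⟨frameSec N₀ β₀ R j, hmem j⟩))
    intro x hx
    have key : π.comp f₁ = f₂ := ext_bc fun m => by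
      have hf : ∀ z : N₀.L 0, f₁ ⟨b.f (z : N₀.M), b.map_mem z.2⟩ =
          r • (⟨b.f ((((1 : k) ⊗ₜ[k] c) • z : N₀.L 0) : N₀.M), b.map_mem (Subtype.prop _)⟩ :
            (N.L 0).restrictScalars R) := fun z => by
        refine Subtype.ext ?_
        show (r ⊗ₜ[k] c) • b.f (z : N₀.M) = r • b.f (((1 : k) ⊗ₜ[k] c) • (z : N₀.M))
        rw [b.f_smul_chart, ← smul_assoc]
        simp [CurveData.mapA, TensorProduct.smul_tmul']
      funext i
      simp only [f₂, LinearMap.comp_apply, LinearMap.coe_sum, Finset.sum_apply,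
        LinearMap.smulRight_apply, LinearMap.proj_apply, Pi.smul_apply, smul_eq_mul]
      rw [hf, map_smul, Pi.smul_apply, hπ', coord_smul_chart, map_sum, smul_eq_mul,
        Finset.mul_sum]
      refine Finset.sum_congr rfl fun j _ => ?_
      rw [show f₁ ⟨frameSec N₀ β₀ R j, hmem j⟩ = _ from hf (β₀ j), map_smul, Pi.smul_apply, hπ',
        hπ', map_mul, smul_eq_mul]
      ring
    have := LinearMap.congr_fun key ⟨x, hx⟩
    simpa [f₂, f₁] using this

/-- Every homomorphism gives a frame. -/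
theorem exists_frame (ψ : Ring N₀ β₀ →ₐ[k] R) :
    ∃ S : Submodule (D.A R 0) (bc N₀ R).M, HasCoords N₀ β₀ ψ S := by
  set N := bc N₀ R
  set b := bcMor N₀ R
  obtain ⟨π, hπ⟩ := b.exists_lift 0 (coordHom N₀ β₀ ψ).toAddMonoidHom fun c m =>
    ((coordHom N₀ β₀ ψ).map_smul c m).trans (funext fun i => by
      show c • coordHom N₀ β₀ ψ m i = _
      rw [Algebra.smul_def]; rfl)
  have hπ' : ∀ (m : N₀.L 0) (i : Fin g),
      π ⟨b.f (m : N₀.M), b.map_mem m.2⟩ i = ψ (coord N₀ β₀ i m) := fun m i => congrFun (hπ m) i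
  have hmem : ∀ i, frameSec N₀ β₀ R i ∈ N.L 0 := fun i => b.map_mem (β₀ i).2
  have hbasis : ∀ i, π ⟨frameSec N₀ β₀ R i, hmem i⟩ = Pi.single i 1 := fun i => funext fun j =>
    (hπ' (β₀ i) j).trans (by
      rw [coord_basis]
      rcases eq_or_ne j i with rfl | hj <;> simp [*])
  -- As the relations say, the kernel of `π` is stable under the chart: it is the frame.
  have hsmul : ∀ (a : D.A R 0) (x : N.M) (hx : x ∈ (N.L 0).restrictScalars R),
      π ⟨a • x, (N.L 0).smul_mem a hx⟩ =
        ∑ j, π ⟨x, hx⟩ j • π ⟨a • frameSec N₀ β₀ R j, (N.L 0).smul_mem a (hmem j)⟩ :=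
    coords_smul ψ π hπ' hmem
  let S : Submodule (D.A R 0) N.M :=
    { carrier := {x | ∃ hx : x ∈ (N.L 0).restrictScalars R, π ⟨x, hx⟩ = 0}
      add_mem' := by
        rintro x y ⟨hx, ex⟩ ⟨hy, ey⟩
        refine ⟨add_mem hx hy, ?_⟩
        rw [show (⟨x + y, _⟩ : (N.L 0).restrictScalars R) = ⟨x, hx⟩ + ⟨y, hy⟩ from rfl, map_add,
          ex, ey, add_zero]
      zero_mem' := ⟨zero_mem _, map_zero π⟩
      smul_mem' := fun a x ⟨hx, ex⟩ => ⟨(N.L 0).smul_mem a hx, by
        rw [hsmul a x hx]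
        simp [ex]⟩ }
  have hframe : N.IsFrame (frameSec N₀ β₀ R) S :=
    LB.IsFrame.of_proj π (fun x hx => hx.1) hmem hbasis fun m =>
      ⟨fun ⟨_, e⟩ => e, fun e => ⟨m.2, e⟩⟩
  refine ⟨S, hframe, fun m i => ?_⟩
  rw [← hπ' m i]
  refine congrFun (hframe.proj_eq (c := π ⟨b.f (m : N₀.M), b.map_mem m.2⟩) ?_) i
  have hmemL : b.f (m : N₀.M) - ∑ j, π ⟨b.f (m : N₀.M), b.map_mem m.2⟩ j • frameSec N₀ β₀ R j ∈
      (N.L 0).restrictScalars R :=
    sub_mem (b.map_mem m.2) (sum_mem fun j _ => Submodule.smul_mem _ _ (hmem j))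
  refine ⟨hmemL, ?_⟩
  rw [show (⟨_, hmemL⟩ : (N.L 0).restrictScalars R) = ⟨b.f (m : N₀.M), b.map_mem m.2⟩ -
      ∑ j, π ⟨b.f (m : N₀.M), b.map_mem m.2⟩ j •
        (⟨frameSec N₀ β₀ R j, hmem j⟩ : (N.L 0).restrictScalars R) from Subtype.ext (by simp),
    map_sub, map_sum]
  simp only [map_smul, hbasis, ← pi_eq_sum_univ', sub_self]

/-- Every frame comes from a homomorphism. -/
theorem exists_hom {S : Submodule (D.A R 0) (bc N₀ R).M}
    (h : (bc N₀ R).IsFrame (frameSec N₀ β₀ R) S) :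
    ∃ ψ : Ring N₀ β₀ →ₐ[k] R, HasCoords N₀ β₀ ψ S := by
  set b := bcMor N₀ R
  -- The coordinates of the frame on each section give values of the variables.
  let c : N₀.L 0 → Fin g → R := fun m => h.proj ⟨b.f (m : N₀.M), b.map_mem m.2⟩
  let v : MvPolynomial (Var N₀ (g := g)) k →ₐ[k] R := MvPolynomial.aeval fun x => c x.2 x.1
  have hv : ∀ i m, v (var N₀ i m) = c m i := fun i m => MvPolynomial.aeval_X _ _
  have hc_add : ∀ m m', c (m + m') = c m + c m' := fun m m' => by
    show h.proj _ = h.proj _ + h.proj _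
    rw [← map_add]
    exact congrArg h.proj (Subtype.ext (map_add b.f (m : N₀.M) m'))
  have hc_smul : ∀ (z : k) m, c (z • m) = algebraMap k R z • c m := fun z m => by
    show h.proj _ = algebraMap k R z • h.proj _
    rw [← map_smul]
    exact congrArg h.proj (Subtype.ext (b.f_smul_base z (m : N₀.M)))
  have hc_basis : ∀ j, c (β₀ j) = Pi.single j 1 := fun j => h.proj_basis j
  -- They respect the action of the chart, hence kill the relations.
  have hc_chart : ∀ (a : D.A k 0) m, c (a • m) = ∑ j, c m j • c (a • β₀ j) := by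
    intro a m
    refine h.proj_eq ?_
    have hS := S.smul_mem (D.mapA (Algebra.ofId k R) 0 a)
      (h.sub_proj_mem ⟨b.f (m : N₀.M), b.map_mem m.2⟩)
    rw [smul_sub, Finset.smul_sum] at hS
    have hT := Submodule.sum_mem S (t := Finset.univ) fun j _ =>
      LB.IsFrame.smul_mem (c m j)
        (h.sub_proj_mem ⟨b.f ((a • β₀ j : N₀.L 0) : N₀.M), b.map_mem (Subtype.prop _)⟩)
    have := add_mem hS hT
    convert this using 1
    simp only [SetLike.val_smul, b.f_smul_chart, smul_comm (D.mapA (Algebra.ofId k R) 0 a),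
      frameSec, smul_sub, Finset.smul_sum, Finset.sum_sub_distrib, Finset.sum_apply, Pi.smul_apply,
      Finset.sum_smul, smul_smul, smul_eq_mul, c]
    rw [Finset.sum_comm, sub_add_sub_cancel]
  have hker : ∀ x ∈ Ideal.span (relations N₀ β₀), v x = 0 := by
    intro x hx
    rw [← RingHom.mem_ker]
    refine (Ideal.span_le.2 ?_ : Ideal.span _ ≤ RingHom.ker v) hx
    rintro x (((⟨i, m, m', rfl⟩ | ⟨i, z, m, rfl⟩) | ⟨i, j, rfl⟩) | ⟨i, a, m, rfl⟩) <;>
      rw [SetLike.mem_coe, RingHom.mem_ker]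
    · simp [hv, hc_add]
    · simp [hv, hc_smul, v]
    · rw [map_sub, hv, hc_basis, sub_eq_zero]
      rcases eq_or_ne i j with rfl | hj <;> simp [*]
    · rw [map_sub, map_sum, hv, hc_chart, sub_eq_zero]
      simp [hv]
  refine ⟨Ideal.Quotient.liftₐ _ v hker, h, fun m i => ?_⟩
  show c m i = v (var N₀ i m)
  rw [hv]

/-- A frame determines the homomorphism giving its coordinates. -/
theorem HasCoords.hom_unique {ψ ψ' : Ring N₀ β₀ →ₐ[k] R} {S : Submodule (D.A R 0) (bc N₀ R).M}
    (h : HasCoords N₀ β₀ ψ S) (h' : HasCoords N₀ β₀ ψ' S) : ψ = ψ' := by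
  refine Ideal.Quotient.algHom_ext _ (MvPolynomial.algHom_ext fun ⟨i, m⟩ => ?_)
  exact (h.2 m i).symm.trans (h'.2 m i)

/-- The coordinates determine the frame. -/
theorem HasCoords.submodule_unique {ψ : Ring N₀ β₀ →ₐ[k] R}
    {S S' : Submodule (D.A R 0) (bc N₀ R).M} (h : HasCoords N₀ β₀ ψ S)
    (h' : HasCoords N₀ β₀ ψ S') : S = S' :=
  h.1.eq_of_proj h'.1 fun x => LinearMap.congr_fun
    (ext_bc (f := h.1.proj) (f' := h'.1.proj) fun m => funext fun i =>
      (h.2 m i).trans (h'.2 m i).symm) x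

/-- The image of a frame with given coordinates under base change has the mapped coordinates. -/
theorem HasCoords.map {ψ : Ring N₀ β₀ →ₐ[k] R} {S : Submodule (D.A R 0) (bc N₀ R).M}
    (h : HasCoords N₀ β₀ ψ S) (φ : R →ₐ[k] R') :
    HasCoords N₀ β₀ (φ.comp ψ)
      (Submodule.span (D.A R' 0) ((push N₀ φ).f '' (S : Set (bc N₀ R).M))) := by
  obtain ⟨h', hp⟩ := h.1.map (push N₀ φ)
  have key : ∀ (β' : Fin g → (bc N₀ R').M) (_ : β' = frameSec N₀ β₀ R') {S'}
      (hh : (bc N₀ R').IsFrame β' S'),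
      (∀ (m : N₀.L 0) i,
        hh.proj ⟨(bcMor N₀ R').f (m : N₀.M), (bcMor N₀ R').map_mem m.2⟩ i =
          (φ.comp ψ) (coord N₀ β₀ i m)) → HasCoords N₀ β₀ (φ.comp ψ) S' := by
    rintro β' rfl S' hh e; exact ⟨hh, e⟩
  refine key _ (push_frameSec N₀ β₀ φ) h' fun m i => ?_
  have := congrFun (hp ⟨(bcMor N₀ R).f (m : N₀.M), (bcMor N₀ R).map_mem m.2⟩) i
  simp only [push_apply] at this
  rw [this, h.2 m i]
  rfl

/-! ### Finite type -/

variable (N₀ β₀) in
/-- The ring of frames is of finite type. -/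
theorem finiteType : Algebra.FiniteType k (Ring N₀ β₀) := by
  classical
  have hfin : Algebra.FiniteType k (D.A k 0) :=
    (D.finiteType 0).equiv (Algebra.TensorProduct.lid k (D.B 0)).symm
  obtain ⟨sb, hsb⟩ := hfin
  obtain ⟨sm, hsm⟩ := (Module.Finite.fg_top : (⊤ : Submodule (D.A k 0) (N₀.L 0)).FG)
  -- Generators: coordinates of module generators and of algebra generators times the frame.
  let G : Finset (Ring N₀ β₀) :=
    (Finset.univ ×ˢ sm).image (fun x => coord N₀ β₀ x.1 x.2) ∪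
    ((Finset.univ ×ˢ sb) ×ˢ (Finset.univ : Finset (Fin g))).image
      (fun x => coord N₀ β₀ x.1.1 (x.1.2 • β₀ x.2))
  set A := Algebra.adjoin k (G : Set (Ring N₀ β₀)) with hA
  have hm₀ : ∀ i, ∀ m ∈ sm, coord N₀ β₀ i m ∈ A := fun i m hm => Algebra.subset_adjoin
    (Finset.mem_union_left _ (Finset.mem_image.2 ⟨(i, m), by simp [hm], rfl⟩))
  -- They give the matrices of all functions on the chart, hence all coordinates.
  have hb : ∀ (a : D.A k 0) (i j : Fin g), coord N₀ β₀ i (a • β₀ j) ∈ A := by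
    intro a
    have ha : a ∈ Algebra.adjoin k (sb : Set (D.A k 0)) := hsb ▸ Algebra.mem_top
    induction ha using Algebra.adjoin_induction with
    | mem x hx =>
      exact fun i j => Algebra.subset_adjoin
        (Finset.mem_union_right _ (Finset.mem_image.2 ⟨((i, x), j), by simpa using hx, rfl⟩))
    | algebraMap z =>
      intro i j
      rw [algebraMap_smul, coord_smul, coord_basis]
      exact A.smul_mem (by split <;> simp [one_mem, zero_mem]) z
    | add x y _ _ hx hy => intro i j; rw [add_smul, coord_add]; exact add_mem (hx i j) (hy i j)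
    | mul x y _ _ hx hy =>
      intro i j
      rw [mul_smul, coord_smul_chart]
      exact sum_mem fun l _ => mul_mem (hy l j) (hx i l)
  have hm : ∀ (m : N₀.L 0) (i : Fin g), coord N₀ β₀ i m ∈ A := by
    intro m
    have hm' : m ∈ Submodule.span (D.A k 0) (sm : Set (N₀.L 0)) := hsm ▸ Submodule.mem_top
    induction hm' using Submodule.span_induction with
    | mem x hx => exact fun i => hm₀ i x hx
    | zero =>
      intro i
      have := coord_smul N₀ β₀ i 0 0
      rw [zero_smul, zero_smul] at this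
      rw [this]; exact zero_mem A
    | add x y _ _ hx hy => intro i; rw [coord_add]; exact add_mem (hx i) (hy i)
    | smul a x _ hx =>
      intro i
      rw [coord_smul_chart]
      exact sum_mem fun l _ => mul_mem (hx l) (hb a i l)
  refine ⟨G, eq_top_iff.2 fun x hx => ?_⟩
  clear hx
  obtain ⟨q, rfl⟩ := Ideal.Quotient.mk_surjective x
  induction q using MvPolynomial.induction_on with
  | C z => exact A.algebraMap_mem z
  | add p q hp hq => rw [map_add]; exact add_mem hp hq
  | mul_X p x hp => rw [map_mul]; exact mul_mem hp (hm x.2 x.1)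

end Fermat.Agent.Jac.Chart

end
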