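import Fermat.Agent.Jac.Chart.Ring
import Fermat.Agent.Jac.Cohom

/-!
# The ring of frames is smooth

Frames lift along square-zero extensions: a finite projective module of sections is cut out of a
free module by an idempotent matrix, and idempotents lift.
-/

set_option autoImplicit false

universe u

noncomputable section

open TensorProduct

namespace Fermat.Agent.Jac

variable {k : Type u} [Field k] {D : CurveData k}
variable {R R' : Type u} [CommRing R] [Algebra k R] [CommRing R'] [Algebra k R']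

namespace CurveData

theorem mapA_surjective {φ : R →ₐ[k] R'} (hφ : Function.Surjective φ) (i : Fin 2) :
    Function.Surjective (D.mapA φ i) :=
  show Function.Surjective
    (TensorProduct.map φ.toLinearMap (LinearMap.id (R := k) (M := D.B i))) from
    TensorProduct.map_surjective hφ Function.surjective_id

theorem ker_mapA {φ : R →ₐ[k] R'} (hφ : Function.Surjective φ) (i : Fin 2) :
    RingHom.ker (D.mapA φ i) = (RingHom.ker φ).map (algebraMap R (D.A R i)) :=
  Algebra.TensorProduct.rTensor_ker φ hφ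

theorem mem_smul_top_of_mapA_eq_zero {φ : R →ₐ[k] R'} (hφ : Function.Surjective φ) {i : Fin 2}
    {a : D.A R i} (ha : D.mapA φ i a = 0) : a ∈ RingHom.ker φ • (⊤ : Submodule R (D.A R i)) := by
  have : a ∈ (RingHom.ker φ).map (algebraMap R (D.A R i)) := by
    rw [← D.ker_mapA hφ i, RingHom.mem_ker]; exact ha
  rw [Ideal.smul_top_eq_map]
  exact this

end CurveData

namespace LB

variable {φ : R →ₐ[k] R'} {N : LB D R} {N' : LB D R'}

/-- Along a surjection, the image of a submodule of a chart is a submodule. -/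
theorem Mor.exists_mem_of_mem_span (g : Mor φ N N') (hφ : Function.Surjective φ) (i : Fin 2)
    (S : Submodule (D.A R i) N.M) {y : N'.M}
    (hy : y ∈ Submodule.span (D.A R' i) (g.f '' (S : Set N.M))) : ∃ x ∈ S, g.f x = y := by
  induction hy using Submodule.span_induction with
  | mem y hy => exact hy
  | zero => exact ⟨0, zero_mem S, map_zero _⟩
  | add a b _ _ ha hb =>
    obtain ⟨x, hx, rfl⟩ := ha
    obtain ⟨x', hx', rfl⟩ := hb
    exact ⟨x + x', add_mem hx hx', map_add _ _ _⟩
  | smul a y _ hy =>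
    obtain ⟨x, hx, rfl⟩ := hy
    obtain ⟨a', rfl⟩ := D.mapA_surjective hφ i a
    exact ⟨a' • x, S.smul_mem a' hx, g.f_smul_chart a' x⟩

/-- Along a surjection, the sections that become zero are those with coefficients in the kernel. -/
theorem Mor.mem_smul_top_of_eq_zero (g : Mor φ N N') (hφ : Function.Surjective φ) (i : Fin 2)
    {x : N.L i} (hx : g.f (x : N.M) = 0) : x ∈ RingHom.ker φ • (⊤ : Submodule R (N.L i)) := by
  let : Algebra R R' := φ.toRingHom.toAlgebra
  have : IsScalarTower k R R' := IsScalarTower.of_algebraMap_eq fun c => (φ.commutes c).symm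
  let : Module R N'.M := Module.compHom N'.M φ.toRingHom
  have : IsScalarTower R R' N'.M := IsScalarTower.of_algebraMap_smul fun _ _ => rfl
  let g' : Mor (IsScalarTower.toAlgHom k R R') N N' := ⟨g.f, g.map_smul, g.span_map⟩
  exact mem_smul_top_of_isBaseChange (g'.isBaseChange_lattice i) hφ (Subtype.ext hx)

/-- An idempotent endomorphism of a free module over the chart lifts along a square-zero
extension. -/
private theorem exists_projector_lift (hφ : Function.Surjective φ) (hI : RingHom.ker φ ^ 2 = ⊥)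
    {n : ℕ} {P₀ : Type*} [AddCommGroup P₀] [Module (D.A R' 0) P₀]
    (j : (Fin n → D.A R' 0) →ₗ[D.A R' 0] P₀) (sec : P₀ →ₗ[D.A R' 0] (Fin n → D.A R' 0))
    (hsec : ∀ s, j (sec s) = s) :
    ∃ e : (Fin n → D.A R 0) →ₗ[D.A R 0] (Fin n → D.A R 0), (∀ v, e (e v) = e v) ∧
      ∀ v, (D.mapA φ 0).toRingHom ∘ e v = sec (j ((D.mapA φ 0).toRingHom ∘ v)) := by
  classical
  set A := D.A R 0
  set A' := D.A R' 0
  set f : A →+* A' := (D.mapA φ 0).toRingHom
  have hf : Function.Surjective f := D.mapA_surjective hφ 0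
  set E' : Matrix (Fin n) (Fin n) A' := LinearMap.toMatrix' (sec ∘ₗ j)
  have hE' : IsIdempotentElem E' := by
    show E' * E' = E'
    rw [← LinearMap.toMatrix'_comp]
    congr 1
    exact LinearMap.ext fun v => congrArg sec (hsec (j v))
  obtain ⟨E, hE, hEE'⟩ := exists_isIdempotentElem_eq_of_ker_isNilpotent f.mapMatrix
    (fun x hx => ⟨2, by
      have hx' : ∀ a b, x a b ∈ (RingHom.ker φ).map (algebraMap R A) := fun a b => by
        rw [← D.ker_mapA hφ 0, RingHom.mem_ker]
        exact congrArg (fun M : Matrix (Fin n) (Fin n) A' => M a b) (RingHom.mem_ker.1 hx)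
      ext a c
      rw [sq, Matrix.mul_apply]
      refine Finset.sum_eq_zero fun b _ => ?_
      have := Ideal.mul_mem_mul (hx' a b) (hx' b c)
      rwa [← sq, ← Ideal.map_pow, hI, Ideal.map_bot, Ideal.mem_bot] at this⟩)
    E' (by
      refine ⟨fun a b => (hf (E' a b)).choose, ?_⟩
      ext a b
      exact (hf (E' a b)).choose_spec) hE'
  let e : (Fin n → A) →ₗ[A] (Fin n → A) := Matrix.toLin' E
  have hee : ∀ v, e (e v) = e v := fun v => by
    rw [← LinearMap.comp_apply, ← Matrix.toLin'_mul, hE.eq]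
  have he : ∀ v : Fin n → A, f ∘ e v = sec (j (f ∘ v)) := fun v => by
    funext a
    show f (E.mulVec v a) = _
    rw [RingHom.map_mulVec, show E.map f = E' from hEE', ← Matrix.toLin'_apply,
      Matrix.toLin'_toMatrix']
    rfl
  exact ⟨e, hee, he⟩

/-- A map from a free module into the lattice lifts along a surjection. -/
private theorem exists_map_lift (g : Mor φ N N') (hφ : Function.Surjective φ) {n : ℕ}
    {S' : Submodule (D.A R' 0) N'.M} (hle : S' ≤ N'.L 0)
    (j : (Fin n → D.A R' 0) →ₗ[D.A R' 0] S') :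
    ∃ J : (Fin n → D.A R 0) →ₗ[D.A R 0] N.M, (∀ v, J v ∈ N.L 0) ∧
      ∀ v, g.f (J v) = (j ((D.mapA φ 0).toRingHom ∘ v) : N'.M) := by
  classical
  set A := D.A R 0
  set A' := D.A R' 0
  set f : A →+* A' := (D.mapA φ 0).toRingHom
  have hx : ∀ a, ∃ x ∈ N.L 0, g.f x = (j (Pi.single a 1) : N'.M) := fun a =>
    g.exists_mem_of_mem_span hφ 0 (N.L 0) ((g.span_map 0).symm ▸ hle (j (Pi.single a 1)).2)
  choose x hxL hxj using hx
  let J : (Fin n → A) →ₗ[A] N.M := Fintype.linearCombination A x
  have hJL : ∀ v, J v ∈ N.L 0 := fun v => by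
    rw [show J v = ∑ a, v a • x a from Fintype.linearCombination_apply _ _ _]
    exact sum_mem fun a _ => (N.L 0).smul_mem _ (hxL a)
  have hJ : ∀ v : Fin n → A, g.f (J v) = (j (f ∘ v) : N'.M) := fun v => by
    rw [show J v = ∑ a, v a • x a from Fintype.linearCombination_apply _ _ _, map_sum]
    conv_rhs => rw [pi_eq_sum_univ' (f ∘ v)]
    rw [map_sum, Submodule.coe_sum]
    refine Finset.sum_congr rfl fun a _ => ?_
    rw [g.f_smul_chart, hxj, map_smul]
    rfl
  exact ⟨J, hJL, hJ⟩

/-- A pair vanishing along a surjection lies in the kernel times the product. -/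
private theorem mk_mem_ker_smul_top (hφ : Function.Surjective φ) {n n₀ : ℕ}
    {v : Fin n → D.A R 0} {c : Fin n₀ → R} (hv : (D.mapA φ 0).toRingHom ∘ v = 0)
    (hc : (fun i => φ (c i)) = 0) :
    (v, c) ∈ RingHom.ker φ • (⊤ : Submodule R ((Fin n → D.A R 0) × (Fin n₀ → R))) := by
  classical
  have h1 : v ∈ RingHom.ker φ • (⊤ : Submodule R (Fin n → D.A R 0)) := by
    rw [← Finset.univ_sum_single v]
    refine sum_mem fun a _ => ?_
    have := Submodule.mem_map_of_mem (f := LinearMap.single R (fun _ : Fin n => D.A R 0) a)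
      (D.mem_smul_top_of_mapA_eq_zero hφ (i := 0) (congrFun hv a))
    rw [Submodule.map_smul''] at this
    exact Submodule.smul_mono le_rfl le_top this
  have h2 : c ∈ RingHom.ker φ • (⊤ : Submodule R (Fin n₀ → R)) := by
    rw [pi_eq_sum_univ' c]
    exact sum_mem fun i _ => Submodule.smul_mem_smul (congrFun hc i) Submodule.mem_top
  rw [show (v, c) = LinearMap.inl R _ _ v + LinearMap.inr R _ _ c by simp]
  refine add_mem ?_ ?_
  · have := Submodule.mem_map_of_mem (f := LinearMap.inl R (Fin n → D.A R 0) (Fin n₀ → R)) h1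
    rw [Submodule.map_smul''] at this
    exact Submodule.smul_mono le_rfl le_top this
  · have := Submodule.mem_map_of_mem (f := LinearMap.inr R (Fin n → D.A R 0) (Fin n₀ → R)) h2
    rw [Submodule.map_smul''] at this
    exact Submodule.smul_mono le_rfl le_top this

omit [Algebra k R] in
/-- Over a square-zero ideal `I`, a surjection with a projective target is injective on the image of
an idempotent it factors through, as soon as its kernel there lies in the multiples by `I`. -/
private theorem eq_zero_of_mem_smul_top {I : Ideal R} (hI : I ^ 2 = ⊥) {K M : Type*}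
    [AddCommGroup K] [Module R K] [AddCommGroup M] [Module R M] [Module.Projective R M]
    {Φ : K →ₗ[R] M} (hΦ : Function.Surjective Φ) {Q : K →ₗ[R] K} (hQQ : ∀ z, Q (Q z) = Q z)
    (hΦQ : ∀ z, Φ (Q z) = Φ z) (hbad : ∀ z, Φ z = 0 → Q z = z → z ∈ I • (⊤ : Submodule R K))
    {z : K} (hz : Φ z = 0) (hQ : Q z = z) : z = 0 := by
  obtain ⟨σ, hσ⟩ := Module.projective_lifting_property Φ LinearMap.id hΦ
  have hσ' : ∀ m, Φ (σ m) = m := fun m => LinearMap.congr_fun hσ m
  let P : K →ₗ[R] K := Q - Q.comp (σ.comp Φ)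
  have hP : ∀ z, P z ∈ I • (⊤ : Submodule R K) := fun z => by
    refine hbad _ ?_ ?_
    · show Φ (Q z - Q (σ (Φ z))) = 0
      rw [map_sub, hΦQ, hΦQ, hσ', sub_self]
    · show Q (Q z - Q (σ (Φ z))) = Q z - Q (σ (Φ z))
      rw [map_sub, hQQ, hQQ]
  have h1 : P z = z := by
    show Q z - Q (σ (Φ z)) = z
    rw [hz, map_zero, map_zero, sub_zero, hQ]
  have h2 := Submodule.mem_map_of_mem (f := P) (hbad z hz hQ)
  rw [h1, Submodule.map_smul''] at h2
  have h3 : Submodule.map P ⊤ ≤ I • (⊤ : Submodule R K) := by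
    rintro _ ⟨w, -, rfl⟩; exact hP w
  have h4 := Submodule.smul_mono le_rfl h3 h2
  rwa [← Submodule.mul_smul, ← sq, hI, Submodule.bot_smul, Submodule.mem_bot] at h4

/-- Frames lift along square-zero extensions. -/
theorem IsFrame.exists_lift {n₀ : ℕ} {β : Fin n₀ → N.M} (g : Mor φ N N')
    (hφ : Function.Surjective φ) (hI : RingHom.ker φ ^ 2 = ⊥) (hβ : ∀ i, β i ∈ N.L 0)
    {S' : Submodule (D.A R' 0) N'.M} (h' : N'.IsFrame (fun i => g.f (β i)) S') :
    ∃ S : Submodule (D.A R 0) N.M, N.IsFrame β S ∧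
      Submodule.span (D.A R' 0) (g.f '' (S : Set N.M)) = S' := by
  classical
  set A := D.A R 0
  set A' := D.A R' 0
  set f : A →+* A' := (D.mapA φ 0).toRingHom
  have hf : Function.Surjective f := D.mapA_surjective hφ 0
  -- the sublattice is cut out of a free module
  have := h'.isSubLattice.invertible_sublattice
  obtain ⟨n, j, hj⟩ := Module.Finite.exists_fin' A' S'
  obtain ⟨sec, hsec⟩ := Module.projective_lifting_property j LinearMap.id hj
  have hsec' : ∀ s, j (sec s) = s := fun s => LinearMap.congr_fun hsec s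
  -- lift the projector and the map to the sublattice
  obtain ⟨e, hee, (he : ∀ v, f ∘ e v = sec (j (f ∘ v)))⟩ := exists_projector_lift hφ hI j sec hsec'
  obtain ⟨J, hJL, (hJ : ∀ v, g.f (J v) = (j (f ∘ v) : N'.M))⟩ := exists_map_lift g hφ h'.le j
  set S : Submodule A N.M := LinearMap.range (J ∘ₗ e) with hS
  have hSmem : ∀ v, J (e v) ∈ S := fun v => ⟨v, rfl⟩
  have himage : Submodule.span A' (g.f '' (S : Set N.M)) = S' := by
    refine le_antisymm (Submodule.span_le.2 ?_) fun y hy => ?_
    · rintro _ ⟨_, ⟨v, rfl⟩, rfl⟩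
      rw [LinearMap.comp_apply, hJ]
      exact Subtype.prop _
    · obtain ⟨v', hv'⟩ := hj ⟨y, hy⟩
      obtain ⟨v, rfl⟩ : ∃ v : Fin n → A, f ∘ v = v' :=
        ⟨fun a => (hf (v' a)).choose, funext fun a => (hf (v' a)).choose_spec⟩
      refine Submodule.subset_span ⟨_, hSmem v, ?_⟩
      rw [hJ, he, hsec', hv']
  -- the total map
  have := N.projective_L 0
  let Φ : ((Fin n → A) × (Fin n₀ → R)) →ₗ[R] N.L 0 :=
    LinearMap.codRestrict ((N.L 0).restrictScalars R)
      (((J ∘ₗ e).restrictScalars R).comp (LinearMap.fst R (Fin n → A) (Fin n₀ → R)) +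
        (Fintype.linearCombination R β).comp (LinearMap.snd R (Fin n → A) (Fin n₀ → R)))
      fun z => add_mem (hJL _) (by
        rw [LinearMap.comp_apply, Fintype.linearCombination_apply]
        exact sum_mem fun i _ => Submodule.smul_of_tower_mem _ _ (hβ i))
  have hΦ : ∀ v c, (Φ (v, c) : N.M) = J (e v) + ∑ i, c i • β i := fun v c => by
    show J (e v) + Fintype.linearCombination R β c = _
    rw [Fintype.linearCombination_apply R β c]
  have hgΦ : ∀ v c, g.f (Φ (v, c) : N.M) = (j (f ∘ e v) : N'.M) + ∑ i, φ (c i) • g.f (β i) :=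
    fun v c => by
      rw [hΦ, map_add, hJ, map_sum]
      simp only [g.f_smul_base]
  have hsurj : Function.Surjective Φ := by
    have key : (⊤ : Submodule R (N.L 0)) ≤ LinearMap.range Φ ⊔ RingHom.ker φ • ⊤ := by
      rintro m -
      have hm' := g.map_mem m.2
      obtain ⟨c, hc⟩ : ∃ c : Fin n₀ → R, (fun i => φ (c i)) = h'.proj ⟨g.f m, hm'⟩ :=
        ⟨fun i => (hφ (h'.proj ⟨g.f m, hm'⟩ i)).choose,
          funext fun i => (hφ (h'.proj ⟨g.f m, hm'⟩ i)).choose_spec⟩
      have hs := h'.sub_proj_mem ⟨g.f m, hm'⟩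
      rw [← hc] at hs
      obtain ⟨v', hv'⟩ := hj ⟨_, hs⟩
      obtain ⟨v, rfl⟩ : ∃ v : Fin n → A, f ∘ v = v' :=
        ⟨fun a => (hf (v' a)).choose, funext fun a => (hf (v' a)).choose_spec⟩
      have hzero : g.f ((m - Φ (v, c) : N.L 0) : N.M) = 0 := by
        rw [AddSubgroupClass.coe_sub, map_sub, hgΦ, he, hsec', hv']
        simp
      exact Submodule.mem_sup.2 ⟨Φ (v, c), LinearMap.mem_range_self Φ _, m - Φ (v, c),
        g.mem_smul_top_of_eq_zero hφ 0 hzero, add_sub_cancel _ _⟩
    have key' : RingHom.ker φ • (⊤ : Submodule R (N.L 0)) ≤ LinearMap.range Φ := by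
      refine (Submodule.smul_mono le_rfl key).trans ?_
      rw [Submodule.smul_sup, ← Submodule.mul_smul, ← sq, hI, Submodule.bot_smul, sup_bot_eq]
      exact Submodule.smul_le_right
    exact LinearMap.range_eq_top.1 (top_le_iff.1 (key.trans (sup_le le_rfl key')))
  -- injectivity on the lifted frame
  let Q : ((Fin n → A) × (Fin n₀ → R)) →ₗ[R] ((Fin n → A) × (Fin n₀ → R)) :=
    (e.restrictScalars R).prodMap LinearMap.id
  have hQQ : ∀ z, Q (Q z) = Q z := fun z => Prod.ext (hee z.1) rfl
  have hΦQ : ∀ z, Φ (Q z) = Φ z := fun z => Subtype.ext (by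
    rw [show (Q z) = (e z.1, z.2) from rfl, hΦ, show z = (z.1, z.2) from rfl, hΦ, hee])
  set K := ((Fin n → A) × (Fin n₀ → R))
  have hbad : ∀ z : K, Φ z = 0 → Q z = z → z ∈ RingHom.ker φ • (⊤ : Submodule R K) := by
    rintro ⟨v, c⟩ hz hQ
    have hev : e v = v := congrArg Prod.fst hQ
    have h0 := hgΦ v c
    rw [hz, hev, ZeroMemClass.coe_zero, map_zero] at h0
    have hc : (fun i => φ (c i)) = 0 :=
      h'.coords_unique (m := ∑ i, φ (c i) • g.f (β i))
        (sum_mem fun i _ => Submodule.smul_of_tower_mem _ _ (h'.mem i))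
        (by simp) (by
          simp only [Pi.zero_apply, zero_smul, Finset.sum_const_zero, sub_zero]
          rw [show ∑ i, φ (c i) • g.f (β i) = -(j (f ∘ v) : N'.M) from
            eq_neg_of_add_eq_zero_right h0.symm]
          exact neg_mem (Subtype.prop _))
    have hjv : j (f ∘ v) = 0 := Subtype.ext (by
      simpa [show ∀ i, φ (c i) = 0 from fun i => congrFun hc i] using h0.symm)
    have hv : f ∘ v = 0 := by
      rw [← hev, he, hjv, map_zero]
    exact mk_mem_ker_smul_top hφ hv hc
  refine ⟨S, ⟨?_, hβ, fun m hm => ?_⟩, himage⟩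
  · rintro _ ⟨v, rfl⟩; exact hJL _
  obtain ⟨⟨v, c⟩, hvc⟩ := hsurj ⟨m, hm⟩
  have hvc' : J (e v) + ∑ i, c i • β i = m := (hΦ v c).symm.trans (congrArg Subtype.val hvc)
  refine ⟨c, ?_, fun c' hc' => ?_⟩
  · show m - ∑ i, c i • β i ∈ S
    rw [← hvc', add_sub_cancel_right]
    exact hSmem v
  · obtain ⟨v', hv'⟩ := hc'
    have h0 : Φ (e (v' - v), c' - c) = 0 := Subtype.ext (by
      rw [hΦ, hee, map_sub, map_sub, show J (e v') = m - ∑ i, c' i • β i from hv', ← hvc']
      simp only [Pi.sub_apply, sub_smul, Finset.sum_sub_distrib, ZeroMemClass.coe_zero]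
      abel)
    exact sub_eq_zero.1 (congrArg Prod.snd
      (eq_zero_of_mem_smul_top hI hsurj hQQ hΦQ hbad h0 (Prod.ext (hee _) rfl)))

end LB

namespace Chart

variable (N₀ : LB D k) {g : ℕ} (β₀ : Fin g → N₀.L 0)

/-- The ring of frames is formally smooth. -/
theorem formallySmooth : Algebra.FormallySmooth k (Ring N₀ β₀) := by
  refine .of_comp_surjective fun C _ _ I hI ψ' => ?_
  obtain ⟨S', hS'⟩ := exists_frame ψ'
  have hker : RingHom.ker (Ideal.Quotient.mkₐ k I) = I := Ideal.Quotient.mkₐ_ker k I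
  have h' : (bc N₀ (C ⧸ I)).IsFrame
      (fun i => (push N₀ (Ideal.Quotient.mkₐ k I)).f (frameSec N₀ β₀ C i)) S' := by
    rw [push_frameSec]; exact hS'.isFrame
  obtain ⟨S, hS, hSS'⟩ := LB.IsFrame.exists_lift (push N₀ (Ideal.Quotient.mkₐ k I))
    (Ideal.Quotient.mkₐ_surjective k I) (by rw [hker]; exact hI)
    (fun i => (bcMor N₀ C).map_mem (β₀ i).2) h'
  obtain ⟨ψ, hψ⟩ := exists_hom hS
  refine ⟨ψ, ?_⟩
  have := hψ.map (Ideal.Quotient.mkₐ k I)
  rw [hSS'] at this
  exact this.hom_unique hS'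

/-- The ring of frames is smooth. -/
theorem smooth : Algebra.Smooth k (Ring N₀ β₀) where
  formallySmooth := formallySmooth N₀ β₀
  finitePresentation := Algebra.FinitePresentation.of_finiteType.1 (finiteType N₀ β₀)

/-- Open affine pieces of the ring of frames are smooth. -/
theorem smooth_away (f : Ring N₀ β₀) : Algebra.Smooth k (Localization.Away f) := by
  have := smooth N₀ β₀
  have : Algebra.Smooth (Ring N₀ β₀) (Localization.Away f) :=
    Algebra.Smooth.of_isLocalization_Away f
  exact Algebra.Smooth.comp k (Ring N₀ β₀) (Localization.Away f)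

end Chart

end Fermat.Agent.Jac

end
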