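import Fermat.Agent.Jac.Chart.Ring
import Fermat.Agent.Jac.Chart.Point

/-!
# The universal bundle on an affine piece of the frame scheme
-/

set_option autoImplicit false

universe u

noncomputable section

open TensorProduct

namespace Fermat.Agent.Jac.Chart

variable {k : Type u} [Field k] {D : CurveData k}
variable {N₀ : LB D k} {β₀ : Fin D.genus → N₀.L 0}
variable {R R' : Type u} [CommRing R] [Algebra k R] [CommRing R'] [Algebra k R']

theorem bc_deg (hdeg : N₀.deg = D.genus) (K : Type u) [Field K] [Algebra k K] (φ : R →ₐ[k] K)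
    (L : LB D K) (g : LB.Mor φ (bc N₀ R) L) : L.deg = D.genus :=
  (LB.deg_eq_of_mor ((bcMor N₀ R).comp g)).trans hdeg

/-- The bundle of a frame. -/
def frameBundle {S : Submodule (D.A R 0) (bc N₀ R).M}
    (h : (bc N₀ R).IsFrame (frameSec N₀ β₀ R) S) : LB D R :=
  (bc N₀ R).subBundle 0 S h.isSubLattice

/-- Equal frames have isomorphic bundles. -/
theorem frameBundle_congr {S S' : Submodule (D.A R 0) (bc N₀ R).M}
    (h : (bc N₀ R).IsFrame (frameSec N₀ β₀ R) S) (h' : (bc N₀ R).IsFrame (frameSec N₀ β₀ R) S')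
    (e : S = S') : (frameBundle h).Isomorphic (frameBundle h') := by
  subst e; exact LB.Isomorphic.refl _

/-- The base change of a frame is a frame. -/
theorem isFrame_push (φ : R →ₐ[k] R') {S : Submodule (D.A R 0) (bc N₀ R).M}
    (h : (bc N₀ R).IsFrame (frameSec N₀ β₀ R) S) :
    (bc N₀ R').IsFrame (frameSec N₀ β₀ R')
      (Submodule.span (D.A R' 0) ((push N₀ φ).f '' (S : Set (bc N₀ R).M))) := by
  obtain ⟨h', -⟩ := h.map (push N₀ φ)
  rwa [push_frameSec] at h'

/-- Frame bundles commute with base change. -/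
def frameMor (φ : R →ₐ[k] R') {S : Submodule (D.A R 0) (bc N₀ R).M}
    (h : (bc N₀ R).IsFrame (frameSec N₀ β₀ R) S) :
    LB.Mor φ (frameBundle h) (frameBundle (isFrame_push φ h)) :=
  (push N₀ φ).sub h.isSubLattice

/-- Two frames with isomorphic bundles are the same point, if the first cohomology of the
homomorphisms from the bundle to `N₀` vanishes. -/
theorem frame_unique (hdeg : N₀.deg = D.genus) {S S' : Submodule (D.A R 0) (bc N₀ R).M}
    (h : (bc N₀ R).IsFrame (frameSec N₀ β₀ R) S) (h' : (bc N₀ R).IsFrame (frameSec N₀ β₀ R) S')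
    [hH1 : Subsingleton ((frameBundle h).hom (bc N₀ R)).H1]
    (e : (frameBundle h).Isomorphic (frameBundle h')) : S = S' :=
  have : Subsingleton (((bc N₀ R).subBundle 0 S h.isSubLattice).hom (bc N₀ R)).H1 := hH1
  h.eq_of_isomorphic h' (bc_deg hdeg) e

/-- If `N₀` has degree the genus, the bundle of a frame over a field has degree zero. -/
theorem frameBundle_deg (hdeg : N₀.deg = D.genus) {K : Type u} [Field K] [Algebra k K]
    {S : Submodule (D.A K 0) (bc N₀ K).M} (h : (bc N₀ K).IsFrame (frameSec N₀ β₀ K) S) :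
    (frameBundle h).deg = 0 := by
  rw [frameBundle, LB.deg_subBundle _ h.isSubLattice, h.finrank_quot,
    LB.deg_eq_of_mor (bcMor N₀ K), hdeg, sub_self]

variable (N₀ β₀) (f : Ring N₀ β₀)

/-- The coordinate ring of an affine piece. -/
abbrev Away : Type u := Localization.Away f

/-- The universal coordinates. -/
def univHom : Ring N₀ β₀ →ₐ[k] Away N₀ β₀ f := IsScalarTower.toAlgHom k (Ring N₀ β₀) (Away N₀ β₀ f)

/-- The universal frame. -/
def univFrame : Submodule (D.A (Away N₀ β₀ f) 0) (bc N₀ (Away N₀ β₀ f)).M :=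
  (exists_frame (univHom N₀ β₀ f)).choose

theorem univFrame_spec : HasCoords N₀ β₀ (univHom N₀ β₀ f) (univFrame N₀ β₀ f) :=
  (exists_frame (univHom N₀ β₀ f)).choose_spec

/-- The universal bundle. -/
def univBundle : LB D (Away N₀ β₀ f) := frameBundle (univFrame_spec N₀ β₀ f).isFrame

variable {N₀ β₀ f}

/-- The frame of a point. -/
def pointFrame (ψ : Away N₀ β₀ f →ₐ[k] R) : Submodule (D.A R 0) (bc N₀ R).M :=
  Submodule.span (D.A R 0) ((push N₀ ψ).f '' (univFrame N₀ β₀ f : Set (bc N₀ (Away N₀ β₀ f)).M))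

/-- A point of an affine piece of the frame scheme gives a frame. -/
theorem isFrame_pointFrame (ψ : Away N₀ β₀ f →ₐ[k] R) :
    (bc N₀ R).IsFrame (frameSec N₀ β₀ R) (pointFrame ψ) :=
  isFrame_push ψ (univFrame_spec N₀ β₀ f).isFrame

theorem hasCoords_pointFrame (ψ : Away N₀ β₀ f →ₐ[k] R) :
    HasCoords N₀ β₀ (ψ.comp (univHom N₀ β₀ f)) (pointFrame ψ) :=
  (univFrame_spec N₀ β₀ f).map ψ

/-- The bundle of a point. -/
def pointBundle (ψ : Away N₀ β₀ f →ₐ[k] R) : LB D R := frameBundle (isFrame_pointFrame ψ)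

/-- The bundle of a point is the base change of the universal one. -/
def pointMor (ψ : Away N₀ β₀ f →ₐ[k] R) : LB.Mor ψ (univBundle N₀ β₀ f) (pointBundle ψ) :=
  frameMor ψ (univFrame_spec N₀ β₀ f).isFrame

theorem subsingleton_H1_pointBundle
    [Subsingleton ((univBundle N₀ β₀ f).hom (bc N₀ (Away N₀ β₀ f))).H1]
    (ψ : Away N₀ β₀ f →ₐ[k] R) : Subsingleton ((pointBundle ψ).hom (bc N₀ R)).H1 :=
  ((pointMor ψ).hom (push N₀ ψ)).subsingleton_H1

/-- A frame whose coordinates do not kill `f` is a point. -/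
theorem exists_point {χ : Ring N₀ β₀ →ₐ[k] R} {S : Submodule (D.A R 0) (bc N₀ R).M}
    (h : HasCoords N₀ β₀ χ S) (hu : IsUnit (χ f)) :
    ∃ ψ : Away N₀ β₀ f →ₐ[k] R, ψ.comp (univHom N₀ β₀ f) = χ ∧ pointFrame ψ = S := by
  let ψ : Away N₀ β₀ f →ₐ[k] R :=
    IsLocalization.liftAlgHom (M := Submonoid.powers f) (f := χ) fun y => by
    obtain ⟨_, n, rfl⟩ := y
    show IsUnit (χ (f ^ n))
    rw [map_pow]
    exact hu.pow n
  have e : ψ.comp (univHom N₀ β₀ f) = χ := AlgHom.ext fun x => IsLocalization.lift_eq _ x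
  exact ⟨ψ, e, (e ▸ hasCoords_pointFrame ψ).submodule_unique h⟩

theorem point_ext {ψ ψ' : Away N₀ β₀ f →ₐ[k] R}
    (h : ψ.comp (univHom N₀ β₀ f) = ψ'.comp (univHom N₀ β₀ f)) : ψ = ψ' :=
  AlgHom.ext fun x => DFunLike.congr_fun
    (IsLocalization.ringHom_ext (M := Submonoid.powers f) (j := ψ.toRingHom) (k := ψ'.toRingHom)
      (RingHom.ext fun y => AlgHom.congr_fun h y)) x

/-- If `N₀` has degree the genus and the first cohomology of the universal homomorphism bundle
vanishes, a point of an affine piece is determined by the isomorphism class of its bundle. -/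
theorem point_mono (hdeg : N₀.deg = D.genus)
    [Subsingleton ((univBundle N₀ β₀ f).hom (bc N₀ (Away N₀ β₀ f))).H1]
    {ψ ψ' : Away N₀ β₀ f →ₐ[k] R} (e : (pointBundle ψ).Isomorphic (pointBundle ψ')) : ψ = ψ' := by
  have hψ : Subsingleton ((pointBundle ψ).hom (bc N₀ R)).H1 := subsingleton_H1_pointBundle ψ
  have : Subsingleton ((frameBundle (isFrame_pointFrame ψ)).hom (bc N₀ R)).H1 := hψ
  have hS := frame_unique hdeg (isFrame_pointFrame ψ) (isFrame_pointFrame ψ') e
  have h' := hasCoords_pointFrame ψ'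
  rw [← hS] at h'
  exact point_ext ((hasCoords_pointFrame ψ).hom_unique h')

end Fermat.Agent.Jac.Chart

end
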